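import Fermat.Agent.Root.SummaryPointDivisibility

/-!
# Dividing by `pⁿ` modulo `q` and Frobenius

At a prime `q ≠ p` of good reduction reduction is bijective on the `pⁿ`-torsion, so a point modulo
`q` whose multiple by `pⁿ` is the reduction of a point fixed by a Frobenius is itself the reduction
of such a point.
-/

set_option autoImplicit false
set_option linter.style.haveILetI false

noncomputable section

open WeierstrassCurve FA.Frob FA.EC FA.PointDiv
open FA.Local (smul_some)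
open scoped WeierstrassCurve.Affine Classical Pointwise

local notation "Qb" => AlgebraicClosure ℚ
local notation "GQ" => AlgebraicClosure ℚ ≃ₐ[ℚ] AlgebraicClosure ℚ

namespace FA.OrderDensity

variable {W : WeierstrassCurve ℤ} [(ratCurve W).IsElliptic] {q : ℕ} [hq : Fact q.Prime]

/-- Frobenius and a point with reduction defined over the prime field have one reduction. -/
theorem red_smul_eq {A : ValuationSubring Qb} [CharP (Res A) q] (hA : A.LiesOverPrime q)
    (hgood : W.IsGoodPrimeFor q)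
    [(redCurve A ((ratCurve W)⁄Qb).toAffine (intCoeff_ratCurve W A)).IsElliptic]
    {σ : GQ} (hσ : A.IsFrobeniusAt σ q) {Q : ((ratCurve W).toAffine⁄Qb).Point}
    {R : (W.map (Int.castRingHom (ZMod q))).toAffine.Point}
    (hrQ : redHom (intCoeff_ratCurve W A) (valuation_Δ_ratCurve W hq.out hA hgood) Q =
      mapHom (ZMod.castHom (dvd_refl q) (Res A)) (map_castHom W (A := A)) R) :
    redHom (intCoeff_ratCurve W A) (valuation_Δ_ratCurve W hq.out hA hgood) (σ • Q) =
      redHom (intCoeff_ratCurve W A) (valuation_Δ_ratCurve W hq.out hA hgood) Q := by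
  have hstab : σ • A = A := hσ.mem_decompositionSubgroup
  have hmem : ∀ z, σ z ∈ A ↔ z ∈ A := fun z => by
    conv_lhs => rw [← hstab]
    exact ValuationSubring.smul_mem_pointwise_smul_iff (g := σ) (S := A) (x := z)
  have hres : ∀ z, z ∈ A → resOf A (σ z) = resOf A z ^ q := by
    intro z hz
    have e := hσ.smul_residue_eq (IsLocalRing.residue A ⟨z, hz⟩)
    rw [← IsLocalRing.ResidueField.residue_smul] at e
    rw [resOf, resOf, dif_pos hz, dif_pos ((hmem z).mpr hz), ← e]
    rfl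
  rcases Q with _ | ⟨a, b, hab⟩
  · exact congrArg _ (FA.Local.gal_smul_zero (ratCurve W) σ)
  obtain ⟨k', e'⟩ := smul_some (σ := σ) (ratCurve W) hab
  rw [e']
  rw [redHom_apply] at hrQ ⊢
  rw [redHom_apply]
  by_cases ha : a ∈ A
  · have hb := y_mem (intCoeff_ratCurve W A) hab.1 ha
    obtain ⟨k₁, e₁⟩ := redFun_of_mem (intCoeff_ratCurve W A) hab ha
    obtain ⟨k₂, e₂⟩ := redFun_of_mem (intCoeff_ratCurve W A) k' ((hmem a).mpr ha)
    rw [e₁] at hrQ
    rw [e₁, e₂]
    rcases R with _ | ⟨c, d, hcd⟩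
    · exact absurd hrQ (Affine.Point.some_ne_zero _)
    rw [mapHom_some] at hrQ
    simp only [Affine.Point.some.injEq] at hrQ ⊢
    rw [hres a ha, hres b hb, hrQ.1, hrQ.2, ← map_pow, ← map_pow, ZMod.pow_card, ZMod.pow_card]
    exact ⟨rfl, rfl⟩
  · rw [redFun, redFun, dif_neg ha, dif_neg fun e => ha ((hmem a).mp e)]

/-- **A `pⁿ`-th part modulo `q` of a fixed point is the reduction of a fixed `pⁿ`-th part.** -/
theorem exists_fixed_lift {p n : ℕ} (hp : p.Prime) (hgood : W.IsGoodPrimeFor q) (hqp : q ≠ p)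
    {A : ValuationSubring Qb} [CharP (Res A) q] (hA : A.LiesOverPrime q)
    [(redCurve A ((ratCurve W)⁄Qb).toAffine (intCoeff_ratCurve W A)).IsElliptic]
    {σ : GQ} (hσ : A.IsFrobeniusAt σ q) {Z : ((ratCurve W).toAffine⁄Qb).Point} (hZ : σ • Z = Z)
    {R : (W.map (Int.castRingHom (ZMod q))).toAffine.Point}
    (hR : mapHom (ZMod.castHom (dvd_refl q) (Res A)) (map_castHom W (A := A)) (p ^ n • R) =
      redHom (intCoeff_ratCurve W A) (valuation_Δ_ratCurve W hq.out hA hgood) Z) :
    ∃ Q, p ^ n • Q = Z ∧ σ • Q = Q ∧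
      redHom (intCoeff_ratCurve W A) (valuation_Δ_ratCurve W hq.out hA hgood) Q =
        mapHom (ZMod.castHom (dvd_refl q) (Res A)) (map_castHom W (A := A)) R := by
  haveI : IsAlgClosed (Res A) := residueField_isAlgClosed A
  set Wk := redCurve A ((ratCurve W)⁄Qb).toAffine (intCoeff_ratCurve W A)
  set r := redHom (intCoeff_ratCurve W A) (valuation_Δ_ratCurve W hq.out hA hgood) with hr
  set m := mapHom (ZMod.castHom (dvd_refl q) (Res A)) (map_castHom W (A := A)) with hm
  have hpk : (p : Res A) ≠ 0 := fun e => hqp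
    ((Nat.prime_dvd_prime_iff_eq hq.out hp).mp ((CharP.cast_eq_zero_iff (Res A) q p).mp e))
  have hpv : A.valuation (p : Qb) = 1 := by
    have : A.valuation ((p : ℤ) : Qb) = 1 := valuation_intCast_of_liesOverPrime hq.out hA
      fun e => hqp ((Nat.prime_dvd_prime_iff_eq hq.out hp).mp (Int.natCast_dvd_natCast.mp e))
    rwa [Int.cast_natCast] at this
  have hker : ∀ (k : ℕ) (X : ((ratCurve W).toAffine⁄Qb).Point),
      p ^ k • X = 0 → r X = 0 → X = 0 := by
    intro k
    induction k with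
    | zero => intro X hX _; simpa using hX
    | succ k ih =>
      intro X hX hrX
      exact redHom_injOn (intCoeff_ratCurve W A) (valuation_Δ_ratCurve W hq.out hA hgood) hp hpv
        (ih (p • X) (by rw [← mul_nsmul', ← pow_succ, hX])
          (by rw [map_nsmul, hrX, nsmul_zero])) hrX
  -- reduction is bijective on `E[pⁿ]`
  let Tor := Submodule.torsionBy ℤ ((ratCurve W).toAffine⁄Qb).Point ((p ^ n : ℕ) : ℤ)
  let Tork := Submodule.torsionBy ℤ Wk.toAffine.Point ((p ^ n : ℕ) : ℤ)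
  have hpkn : ((p ^ n : ℕ) : Res A) ≠ 0 := by rw [Nat.cast_pow]; exact pow_ne_zero _ hpk
  have hfT : Finite Tor := finite_torsion (ratCurve W) (pow_ne_zero _ hp.ne_zero)
  have hfk : Finite Tork := finite_torsionBy Wk hpkn
  let rT : Tor → Tork := fun t => ⟨r t.1, by
    have ht := (Submodule.mem_torsionBy_iff _ _).mp t.2
    rw [Submodule.mem_torsionBy_iff, ← map_zsmul r, ht, map_zero]⟩
  have hrinj : Function.Injective rT := fun t t' e => Subtype.ext (sub_eq_zero.mp (hker n _
    (by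
      rw [nsmul_sub, ← natCast_zsmul, ← natCast_zsmul, (Submodule.mem_torsionBy_iff _ _).mp t.2,
        (Submodule.mem_torsionBy_iff _ _).mp t'.2, sub_self])
    (by rw [map_sub, sub_eq_zero]; exact congrArg Subtype.val e)))
  have hrsurj : Function.Surjective rT := ((Nat.bijective_iff_injective_and_card rT).mpr
    ⟨hrinj, (natCard_torsion (ratCurve W) (pow_ne_zero _ hp.ne_zero)).trans
      (natCard_torsionBy Wk hpkn).symm⟩).2
  obtain ⟨Q₀, hQ₀⟩ := exists_div W (pow_ne_zero n hp.ne_zero) Z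
  obtain ⟨t, ht⟩ := hrsurj ⟨m R - r Q₀, by
    rw [Submodule.mem_torsionBy_iff, natCast_zsmul, nsmul_sub, ← map_nsmul, ← map_nsmul, hR, hQ₀,
      sub_self]⟩
  have ht' : r t.1 = m R - r Q₀ := congrArg Subtype.val ht
  have hQ : p ^ n • (Q₀ + t.1) = Z := by
    rw [nsmul_add, hQ₀, ← natCast_zsmul t.1, (Submodule.mem_torsionBy_iff _ _).mp t.2, add_zero]
  have hrQ : r (Q₀ + t.1) = m R := by rw [map_add, ht', add_sub_cancel]
  refine ⟨Q₀ + t.1, hQ, sub_eq_zero.mp (hker n _ ?_ ?_), hrQ⟩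
  · rw [nsmul_sub, ← smul_nat, hQ, hZ, sub_self]
  · rw [map_sub, red_smul_eq hA hgood hσ hrQ, sub_self]

/-- **A point of exact order `pᵐ⁺¹` modulo `q` gives one fixed by Frobenius.** -/
theorem exists_fixed_torsion {p k : ℕ} (hp : p.Prime) (hgood : W.IsGoodPrimeFor q) (hqp : q ≠ p)
    {R : (W.map (Int.castRingHom (ZMod q))).toAffine.Point} (hR : p ^ (k + 1) • R = 0)
    (hR' : p ^ k • R ≠ 0) {A : ValuationSubring Qb} (hA : A.LiesOverPrime q) {σ : GQ}
    (hσ : A.IsFrobeniusAt σ q) :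
    ∃ T : ((ratCurve W).toAffine⁄Qb).Point, p ^ (k + 1) • T = 0 ∧ σ • T = T ∧ p ^ k • T ≠ 0 := by
  haveI : CharP (Res A) q := residueField_charP A hq.out hA
  haveI := redCurve_isElliptic (intCoeff_ratCurve W A) (valuation_Δ_ratCurve W hq.out hA hgood)
  obtain ⟨T, hT, hσT, hrT⟩ := exists_fixed_lift (n := k + 1) hp hgood hqp hA hσ
    (Z := 0) (FA.Local.gal_smul_zero (ratCurve W) σ) (R := R) (by
      rw [hR, map_zero]; exact (map_zero _).symm)
  refine ⟨T, hT, hσT, fun h => hR' ?_⟩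
  refine mapHom_injective (ZMod.castHom (dvd_refl q) (Res A)) (map_castHom W (A := A)) ?_
  rw [map_nsmul, ← hrT, ← map_nsmul, h, map_zero, map_zero]

/-- **A point divisible by `pⁿ` modulo `q` has a fixed `pⁿ`-th part.** -/
theorem exists_fixed_of_locDiv_pow {p n : ℕ} (hp : p.Prime) {x y : ℚ}
    (h : (ratCurve W).toAffine.Nonsingular x y) (hgood : W.IsGoodPrimeFor q) (hqp : q ≠ p)
    (hx : ¬ q ∣ x.den) (hy : ¬ q ∣ y.den) (hloc : LocDiv W (p ^ n) q x y)
    {A : ValuationSubring Qb} (hA : A.LiesOverPrime q) {σ : GQ} (hσ : A.IsFrobeniusAt σ q) :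
    ∃ Q : Fib W (p ^ n) (.some x y h), fibHom W (p ^ n) (.some x y h) σ Q = Q := by
  haveI : CharP (Res A) q := residueField_charP A hq.out hA
  haveI := redCurve_isElliptic (intCoeff_ratCurve W A) (valuation_Δ_ratCurve W hq.out hA hgood)
  obtain ⟨_, h', R, hR⟩ := hloc
  obtain ⟨h'', hP⟩ := redHom_up W hA hgood h hx hy
  obtain ⟨Q, hQ, hσQ, -⟩ := exists_fixed_lift hp hgood hqp hA hσ (smul_up W σ (.some x y h))
    (R := R) (by rw [hR, hP])
  exact ⟨⟨Q, hQ⟩, Subtype.ext hσQ⟩

end FA.OrderDensity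

end
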