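import Fermat.Agent.BashmakovDensity.Count
import Fermat.Agent.Bashmakov.Core
import Mathlib.Data.ZMod.Units

/-!
# The images of `g - 1` on `(ℤ/pⁿ)²`

Sorted by the reduction modulo `p`: a matrix invertible modulo `p` is onto, one of rank one modulo
`p` has image of size `pⁿ` times that of its determinant, and one which vanishes modulo `p` is `p`
times a matrix modulo `pⁿ⁻¹`.
-/

set_option autoImplicit false
set_option linter.unusedSectionVars false

noncomputable section

open Matrix Finset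
open scoped Classical

namespace FA.OrderDensity

variable {p : ℕ} [hp : Fact p.Prime]

local notation "R[" m "]" => ZMod (p ^ m)
local notation "M[" m "]" => Matrix (Fin 2) (Fin 2) (ZMod (p ^ m))
local notation "M₁" => Matrix (Fin 2) (Fin 2) (ZMod p)

/-- Multiplication by `p` from `ℤ/pᵐ` to `ℤ/pᵐ⁺¹`. -/
def pMul (m : ℕ) : R[m] →+ R[m + 1] :=
  ZMod.lift (p ^ m) ⟨(AddMonoidHom.mulLeft (p : R[m + 1])).comp (Int.castAddHom _), by
    show (p : R[m + 1]) * (((p ^ m : ℕ) : ℤ) : R[m + 1]) = 0
    rw [Int.cast_natCast, ← Nat.cast_mul, ← pow_succ', ZMod.natCast_self]⟩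

/-- Reduction from `ℤ/pᵐ⁺¹` to `ℤ/pᵐ`. -/
def red (m : ℕ) : R[m + 1] →+* R[m] := ZMod.castHom (pow_dvd_pow p m.le_succ) _

/-- Reduction from `ℤ/pᵐ⁺¹` to `ℤ/p`. -/
def res (m : ℕ) : R[m + 1] →+* ZMod p := ZMod.castHom (dvd_pow_self p m.succ_ne_zero) _

theorem red_surjective (m : ℕ) : Function.Surjective (red (p := p) m) :=
  ZMod.castHom_surjective _

theorem res_surjective (m : ℕ) : Function.Surjective (res (p := p) m) :=
  ZMod.castHom_surjective _

theorem pMul_intCast (m : ℕ) (z : ℤ) : pMul (p := p) m (z : R[m]) = (p : R[m + 1]) * z :=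
  ZMod.lift_coe _ _ _

theorem pMul_red (m : ℕ) (x : R[m + 1]) : pMul m (red m x) = (p : R[m + 1]) * x := by
  obtain ⟨z, rfl⟩ := ZMod.intCast_surjective x
  rw [map_intCast, pMul_intCast]

theorem pMul_injective (m : ℕ) : Function.Injective (pMul (p := p) m) := by
  refine (injective_iff_map_eq_zero _).mpr fun x hx => ?_
  obtain ⟨z, rfl⟩ := ZMod.intCast_surjective x
  rw [pMul_intCast, ← Int.cast_natCast, ← Int.cast_mul, ZMod.intCast_zmod_eq_zero_iff_dvd,
    Nat.cast_pow, pow_succ'] at hx
  rw [ZMod.intCast_zmod_eq_zero_iff_dvd, Nat.cast_pow]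
  exact (mul_dvd_mul_iff_left (Int.natCast_ne_zero.mpr hp.out.ne_zero)).mp hx

theorem pMul_mul (m : ℕ) (a : R[m]) (x : R[m + 1]) : pMul m a * x = pMul m (a * red m x) := by
  obtain ⟨a, rfl⟩ := red_surjective m a
  rw [← map_mul, pMul_red, pMul_red, mul_assoc]

theorem res_pMul (m : ℕ) (a : R[m]) : res m (pMul m a) = 0 := by
  obtain ⟨a, rfl⟩ := red_surjective m a
  rw [pMul_red, map_mul, map_natCast, ZMod.natCast_self, zero_mul]

theorem isUnit_iff_res {m : ℕ} {x : R[m + 1]} : IsUnit x ↔ res m x ≠ 0 := by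
  refine ⟨fun h => (h.map (res m)).ne_zero, fun h => ?_⟩
  refine (FA.Bashmakov.isUnit_or_eq_prime_mul hp.out x).resolve_right fun ⟨b, hb⟩ => h ?_
  rw [hb, map_mul, map_natCast, ZMod.natCast_self, zero_mul]

theorem res_eq_zero_iff {m : ℕ} {x : R[m + 1]} : res m x = 0 ↔ ∃ b, pMul m b = x := by
  refine ⟨fun h => ?_, fun ⟨b, hb⟩ => hb ▸ res_pMul m b⟩
  rcases FA.Bashmakov.isUnit_or_eq_prime_mul hp.out x with hu | ⟨b, hb⟩
  · exact absurd h (isUnit_iff_res.mp hu)
  · exact ⟨red m b, by rw [pMul_red, hb]⟩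

theorem card_R (m : ℕ) : Nat.card R[m] = p ^ m := Nat.card_zmod _

instance instNeZeroPow (m : ℕ) : NeZero (p ^ m) := ⟨pow_ne_zero _ hp.out.ne_zero⟩

/-- The size of the ideal generated by `x`. -/
def idealSize {m : ℕ} (x : R[m]) : ℕ := Nat.card (Set.range fun y => x * y)

theorem idealSize_of_isUnit {m : ℕ} {x : R[m]} (h : IsUnit x) : idealSize x = p ^ m := by
  rw [idealSize, show Set.range (fun y => x * y) = Set.univ from Set.eq_univ_iff_forall.mpr fun z =>
    ⟨↑h.unit⁻¹ * z, by simp [← mul_assoc]⟩, Nat.card_univ, card_R]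

theorem idealSize_pMul {m : ℕ} (y : R[m]) : idealSize (pMul m y) = idealSize y := by
  rw [idealSize, idealSize, ← Nat.card_image_of_injective (pMul_injective m)
    (Set.range fun z => y * z), ← Set.range_comp]
  have e : (fun z => pMul m y * z) = (pMul m ∘ fun z => y * z) ∘ red m :=
    funext fun z => pMul_mul m y z
  rw [e, (red_surjective m).range_comp]

theorem idealSize_neg {m : ℕ} (x : R[m]) : idealSize (-x) = idealSize x := by
  rw [idealSize, idealSize, show (fun y => -x * y) = (fun y => x * y) ∘ fun y => -y from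
    funext fun y => by simp, neg_surjective.range_comp]

/-- The sum of the sizes of the principal ideals. -/
def idealTotal (p m : ℕ) [Fact p.Prime] : ℕ := ∑ y : ZMod (p ^ m), idealSize y

theorem idealTotal_zero : idealTotal p 0 = 1 := by
  have : Subsingleton R[0] := by rw [pow_zero]; infer_instance
  have h : ∀ y : R[0], idealSize y = 1 := fun y => Nat.card_eq_one_iff_unique.mpr
    ⟨inferInstance, ⟨⟨_, 0, rfl⟩⟩⟩
  rw [idealTotal, Finset.sum_congr rfl fun y _ => h y, Finset.sum_const, Finset.card_univ,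
    ← Nat.card_eq_fintype_card, card_R, smul_eq_mul, pow_zero, one_mul]

theorem idealTotal_succ (m : ℕ) :
    idealTotal p (m + 1) = (p ^ (m + 1) - p ^ m) * p ^ (m + 1) + idealTotal p m := by
  have hs : (univ.filter fun y : R[m + 1] => res m y = 0) =
      (univ : Finset R[m]).image (pMul m) := by
    ext y; simp [res_eq_zero_iff]
  rw [idealTotal, ← Finset.sum_filter_add_sum_filter_not univ (fun y : R[m + 1] => res m y = 0),
    add_comm]
  congr 1
  · rw [Finset.sum_congr rfl fun y hy =>
      idealSize_of_isUnit (isUnit_iff_res.mpr (Finset.mem_filter.mp hy).2),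
      Finset.sum_const, smul_eq_mul, Finset.filter_not, Finset.card_univ_sdiff, hs,
      Finset.card_image_of_injective _ (pMul_injective m), Finset.card_univ,
      ← Nat.card_eq_fintype_card, ← Nat.card_eq_fintype_card, card_R, card_R]
  · rw [hs, Finset.sum_image fun a _ b _ h => pMul_injective m h]
    exact Finset.sum_congr rfl fun y _ => idealSize_pMul y

/-- The size of the image of a matrix. -/
def imageSize {m : ℕ} (A : M[m]) : ℕ := Nat.card (Set.range fun v => A *ᵥ v)

theorem imageSize_of_isUnit {m : ℕ} {A : M[m]} (h : IsUnit A) : imageSize A = p ^ m * p ^ m := by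
  rw [imageSize, show Set.range (fun v => A *ᵥ v) = Set.univ from
    Set.range_eq_univ.mpr (mulVec_surjective_iff_isUnit.mpr h), Nat.card_univ, Nat.card_fun,
    Nat.card_fin, card_R, sq]

theorem imageSize_map {m : ℕ} (A : M[m]) : imageSize (A.map (pMul m)) = imageSize A := by
  have hinj : Function.Injective fun (w : Fin 2 → R[m]) i => pMul m (w i) :=
    fun a b h => funext fun i => pMul_injective m (congrFun h i)
  have e : (fun v => A.map (pMul m) *ᵥ v) =
      ((fun (w : Fin 2 → R[m]) i => pMul m (w i)) ∘ fun w => A *ᵥ w) ∘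
        fun (v : Fin 2 → R[m + 1]) i => red m (v i) := by
    funext v i
    simp [mulVec, dotProduct, pMul_mul]
  rw [imageSize, imageSize, e, Function.Surjective.range_comp, Set.range_comp,
    Nat.card_image_of_injective hinj]
  intro w
  choose v hv using fun i => red_surjective m (w i)
  exact ⟨v, funext hv⟩

theorem imageSize_zero_zero {m : ℕ} {A : M[m]} (h : IsUnit (A 0 0)) :
    imageSize A = p ^ m * idealSize A.det := by
  let Φ : (Fin 2 → R[m]) → R[m] × R[m] := fun w => (w 0, A 0 0 * w 1 - A 1 0 * w 0)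
  have hinj : Function.Injective Φ := fun a b e => by
    obtain ⟨e0, e1⟩ := Prod.mk.inj e
    rw [e0] at e1
    have e2 : A 0 0 * a 1 = A 0 0 * b 1 := by linear_combination e1
    funext i
    fin_cases i
    exacts [e0, h.mul_left_cancel e2]
  have himg : Φ '' Set.range (fun v => A *ᵥ v) =
      Set.univ ×ˢ Set.range (fun y => A.det * y) := by
    ext ⟨s, t⟩
    constructor
    · rintro ⟨_, ⟨v, rfl⟩, e⟩
      obtain ⟨-, e1⟩ := Prod.mk.inj e
      refine ⟨trivial, v 1, ?_⟩
      rw [← e1]
      simp [mulVec, dotProduct, Fin.sum_univ_two, det_fin_two]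
      ring
    · rintro ⟨-, y, rfl⟩
      refine ⟨_, ⟨![↑h.unit⁻¹ * (s - A 0 1 * y), y], rfl⟩, ?_⟩
      have hu : A 0 0 * ↑h.unit⁻¹ = 1 := h.mul_val_inv
      simp only [Φ, mulVec, dotProduct, Fin.sum_univ_two, det_fin_two, Prod.mk.injEq]
      simp only [Matrix.cons_val_zero, Matrix.cons_val_one]
      refine ⟨?_, ?_⟩
      · linear_combination (s - A 0 1 * y) * hu
      · linear_combination 0 * hu
  rw [imageSize, ← Nat.card_image_of_injective hinj, himg]
  exact (Nat.card_congr (Equiv.Set.prod _ _)).trans (by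
    rw [Nat.card_prod, Nat.card_univ, card_R, idealSize])

/-- **A matrix with a unit entry**: the size of the image is `pᵐ` times that of the determinant. -/
theorem imageSize_of_entry {m : ℕ} {A : M[m]} {i j : Fin 2} (h : IsUnit (A i j)) :
    imageSize A = p ^ m * idealSize A.det := by
  set σ := Equiv.swap 0 i with hσ
  set τ := Equiv.swap 0 j with hτ
  have h00 : IsUnit ((A.submatrix σ τ) 0 0) := by simpa [hσ, hτ] using h
  have e : imageSize (A.submatrix σ τ) = imageSize A := by
    have e' : (fun v => A.submatrix σ τ *ᵥ v) =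
        ((fun w : Fin 2 → R[m] => w ∘ σ) ∘ fun w => A *ᵥ w) ∘ fun v => v ∘ τ.symm :=
      funext fun v => submatrix_mulVec_equiv A v σ τ
    rw [imageSize, imageSize, e', Function.Surjective.range_comp, Set.range_comp,
      Nat.card_image_of_injective σ.surjective.injective_comp_right]
    exact fun w => ⟨w ∘ τ, by ext x; simp⟩
  have hd : idealSize (A.submatrix σ τ).det = idealSize A.det := by
    rcases Fin.exists_fin_two.mp ⟨i, rfl⟩ with rfl | rfl <;>
      rcases Fin.exists_fin_two.mp ⟨j, rfl⟩ with rfl | rfl <;>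
      simp [hσ, hτ, det_fin_two] <;>
      first
        | rfl
        | (rw [← idealSize_neg]; congr 1; ring)
  rw [← e, imageSize_zero_zero h00, hd]

/-- Reduction modulo `p` of matrices. -/
def resMat (m : ℕ) : M[m + 1] →+* M₁ := (res m).mapMatrix

theorem sum_fibre {m : ℕ} {Ā : M₁} {L : M[m + 1]} (hL : resMat m L = Ā) (f : M[m + 1] → ℕ) :
    ∑ A ∈ univ.filter (fun A => resMat m A = Ā), f A =
      ∑ B : M[m], f (L + B.map (pMul m)) := by
  have hs : (univ.filter fun A => resMat m A = Ā) =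
      (univ : Finset M[m]).image fun B => L + B.map (pMul m) := by
    ext A
    simp only [mem_filter, mem_univ, true_and, mem_image]
    constructor
    · intro hA
      have : ∀ a b, ∃ c, pMul m c = (A - L) a b := fun a b => res_eq_zero_iff.mp (by
        have := congrFun (congrFun (hA.trans hL.symm) a) b
        rw [Matrix.sub_apply, map_sub, sub_eq_zero]
        exact this)
      choose B hB using this
      exact ⟨B, by ext a b; simp [hB]⟩
    · rintro ⟨B, rfl⟩
      rw [← hL]
      ext a b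
      simp [resMat, res_pMul]
  rw [hs, Finset.sum_image fun a _ b _ e => ?_]
  ext i j
  exact pMul_injective m (by simpa using congrFun (congrFun e i) j)

theorem card_M (m : ℕ) : Fintype.card M[m] = p ^ (4 * m) := by
  show Fintype.card (Fin 2 → Fin 2 → R[m]) = _
  rw [Fintype.card_fun, Fintype.card_fun, ZMod.card, Fintype.card_fin, ← pow_mul, ← pow_mul]
  ring_nf

theorem sum_imageSize_of_det_ne_zero (m : ℕ) {Ā : M₁} (h : Ā.det ≠ 0) :
    ∑ A ∈ univ.filter (fun A => resMat m A = Ā), imageSize A =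
      p ^ (4 * m) * (p ^ (m + 1) * p ^ (m + 1)) := by
  obtain ⟨L, hL⟩ : ∃ L, resMat m L = Ā := by
    choose f hf using fun a b => res_surjective m (Ā a b)
    exact ⟨f, by ext a b; exact hf a b⟩
  rw [Finset.sum_congr rfl fun A hA => imageSize_of_isUnit ((A.isUnit_iff_isUnit_det).mpr
    (isUnit_iff_res.mpr (by
      rw [RingHom.map_det]; exact ((Finset.mem_filter.mp hA).2.symm ▸ h :))))]
  rw [sum_fibre hL, Finset.sum_const, Finset.card_univ, card_M, smul_eq_mul]

/-- The determinant is affine in each entry, with slope a unit times the opposite entry. -/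
theorem exists_det_add_single {S : Type*} [CommRing S] (i j : Fin 2) :
    ∃ (k l : Fin 2) (e : S), IsUnit e ∧
      ∀ (X : Matrix (Fin 2) (Fin 2) S) (y : S),
        (X + Matrix.single k l y).det = X.det + y * (e * X i j) := by
  fin_cases i <;> fin_cases j
  · exact ⟨1, 1, 1, isUnit_one, fun X y => by simp [det_fin_two]; ring⟩
  · exact ⟨1, 0, -1, isUnit_one.neg, fun X y => by simp [det_fin_two]; ring⟩
  · exact ⟨0, 1, -1, isUnit_one.neg, fun X y => by simp [det_fin_two]; ring⟩
  · exact ⟨0, 0, 1, isUnit_one, fun X y => by simp [det_fin_two]; ring⟩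

theorem sum_imageSize_of_rank_one (m : ℕ) {Ā : M₁} (h0 : Ā ≠ 0) (hd : Ā.det = 0) :
    ∑ A ∈ univ.filter (fun A => resMat m A = Ā), imageSize A =
      p ^ (3 * m) * (p ^ (m + 1) * idealTotal p m) := by
  obtain ⟨L, hL⟩ : ∃ L, resMat m L = Ā := by
    choose f hf using fun a b => res_surjective m (Ā a b)
    exact ⟨f, by ext a b; exact hf a b⟩
  obtain ⟨i, j, hij⟩ : ∃ i j, Ā i j ≠ 0 := by
    by_contra hc
    push Not at hc
    exact h0 (Matrix.ext hc)
  have hres : ∀ (B : M[m]) (a b : Fin 2), res m ((L + B.map (pMul m)) a b) = Ā a b := by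
    intro B a b
    rw [← hL]
    simp [resMat, res_pMul]
  rw [sum_fibre hL, Finset.sum_congr rfl fun B _ => imageSize_of_entry (i := i) (j := j)
    (isUnit_iff_res.mpr (by rw [hres]; exact hij)), ← Finset.mul_sum]
  obtain ⟨k, l, e, he, hdet⟩ := exists_det_add_single (S := R[m + 1]) i j
  set f : M[m] → ℕ := fun B => idealSize (L + B.map (pMul m)).det
  have hshift : ∀ y : R[m], ∑ B, f (B + Matrix.single k l y) = ∑ B, f B := fun y =>
    Equiv.sum_comp (Equiv.addRight (Matrix.single k l y)) f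
  have hrow : ∀ B : M[m], ∑ y, f (B + Matrix.single k l y) = idealTotal p m := by
    intro B
    have hX : res m (L + B.map (pMul m)).det = 0 := by
      rw [RingHom.map_det, ← hd]
      exact congrArg Matrix.det (Matrix.ext (hres B))
    obtain ⟨d, hd'⟩ := res_eq_zero_iff.mp hX
    set u := red m (e * (L + B.map (pMul m)) i j)
    have hu : IsUnit u := (he.mul (isUnit_iff_res.mpr (by rw [hres]; exact hij))).map (red m)
    have hf : ∀ y, f (B + Matrix.single k l y) = idealSize (d + y * u) := fun y => by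
      have e1 : (B + Matrix.single k l y).map (pMul m) =
          B.map (pMul m) + Matrix.single k l (pMul m y) := by
        ext a b
        by_cases hab : k = a ∧ l = b <;> simp [Matrix.single, hab]
      show idealSize (L + (B + Matrix.single k l y).map (pMul m)).det = _
      rw [e1, ← add_assoc, hdet, ← hd', pMul_mul, ← map_add, idealSize_pMul]
    rw [Finset.sum_congr rfl fun y _ => hf y]
    exact Equiv.sum_comp ((Units.mulRight hu.unit : R[m] ≃ R[m]).trans (Equiv.addLeft d))
      fun z => idealSize z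
  have hsum : ∑ B, ∑ y, f (B + Matrix.single k l y) = p ^ m * ∑ B, f B := by
    rw [Finset.sum_comm, Finset.sum_congr rfl fun y _ => hshift y, Finset.sum_const,
      Finset.card_univ, ZMod.card, smul_eq_mul]
  rw [Finset.sum_congr rfl fun B _ => hrow B, Finset.sum_const, Finset.card_univ, card_M,
    smul_eq_mul] at hsum
  have : ∑ B, f B = p ^ (3 * m) * idealTotal p m := by
    refine Nat.eq_of_mul_eq_mul_left (pow_pos hp.out.pos m) (hsum.symm.trans ?_)
    rw [← mul_assoc, ← pow_add, show m + 3 * m = 4 * m by ring]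
  rw [this]; ring

/-- The sum of the sizes of the images of all matrices. -/
def imageTotal (p m : ℕ) [Fact p.Prime] : ℕ :=
  ∑ A : Matrix (Fin 2) (Fin 2) (ZMod (p ^ m)), imageSize A

theorem sum_imageSize_zero (m : ℕ) :
    ∑ A ∈ univ.filter (fun A => resMat m A = (0 : M₁)), imageSize A = imageTotal p m := by
  rw [sum_fibre (L := 0) (map_zero _)]
  exact Finset.sum_congr rfl fun B _ => by rw [zero_add, imageSize_map]

theorem imageTotal_zero : imageTotal p 0 = 1 := by
  have : Subsingleton R[0] := by rw [pow_zero]; infer_instance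
  have h : ∀ A : M[0], imageSize A = 1 := fun A => Nat.card_eq_one_iff_unique.mpr
    ⟨inferInstance, ⟨⟨_, 0, rfl⟩⟩⟩
  rw [imageTotal, Finset.sum_congr rfl fun A _ => h A, Finset.sum_const, Finset.card_univ,
    card_M, smul_eq_mul, mul_zero, pow_zero, one_mul]

/-- The sizes of the images over one matrix modulo `p`. -/
theorem sum_imageSize_eq (m : ℕ) (Ā : M₁) :
    (∑ A ∈ univ.filter (fun A => resMat m A = Ā), (imageSize A : ℝ)) =
      if Ā = 0 then (imageTotal p m : ℝ) else
        if Ā.det = 0 then (p : ℝ) ^ (3 * m) * ((p : ℝ) ^ (m + 1) * idealTotal p m)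
        else (p : ℝ) ^ (4 * m) * ((p : ℝ) ^ (m + 1) * (p : ℝ) ^ (m + 1)) := by
  split_ifs with h0 hd
  · subst h0; exact_mod_cast sum_imageSize_zero m
  · exact_mod_cast sum_imageSize_of_rank_one m h0 hd
  · exact_mod_cast sum_imageSize_of_det_ne_zero m hd

theorem imageTotal_succ (m : ℕ) : (imageTotal p (m + 1) : ℝ) =
    (((p : ℝ) ^ 2 - 1) * ((p : ℝ) ^ 2 - p)) *
        ((p : ℝ) ^ (4 * m) * ((p : ℝ) ^ (m + 1) * (p : ℝ) ^ (m + 1))) +
      ((p : ℝ) + 1) * ((p : ℝ) ^ 2 - 1) *
        ((p : ℝ) ^ (3 * m) * ((p : ℝ) ^ (m + 1) * idealTotal p m)) +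
      imageTotal p m := by
  have hgl : (univ.filter fun A : M₁ => A.det ≠ 0).card = Nat.card (GL (Fin 2) (ZMod p)) := by
    rw [Nat.card_eq_fintype_card, ← Finset.card_univ]
    refine (Finset.card_bij (fun g _ => g.val) (fun g _ => ?_) (fun a _ b _ e => Units.ext e)
      fun A hA => ?_).symm
    · exact Finset.mem_filter.mpr ⟨Finset.mem_univ _,
        ((Matrix.isUnit_iff_isUnit_det g.val).mp g.isUnit).ne_zero⟩
    · exact ⟨Matrix.GeneralLinearGroup.mkOfDetNeZero A (Finset.mem_filter.mp hA).2,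
        Finset.mem_univ _, rfl⟩
  have hgl' : ((univ.filter fun A : M₁ => A.det ≠ 0).card : ℝ) =
      ((p : ℝ) ^ 2 - 1) * ((p : ℝ) ^ 2 - p) := by
    rw [hgl, FA.TraceDist.card_gl2, ZMod.card, Nat.cast_mul,
      Nat.cast_sub (Nat.one_le_pow _ _ hp.out.pos), Nat.cast_sub (Nat.le_self_pow two_ne_zero p),
      Nat.cast_pow, Nat.cast_one]
  rw [imageTotal, Nat.cast_sum, ← Finset.sum_fiberwise univ (resMat m),
    Finset.sum_congr rfl fun Ā _ => sum_imageSize_eq m Ā, Finset.sum_ite, Finset.sum_ite]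
  simp only [Finset.sum_const, nsmul_eq_mul]
  have h1 : (univ.filter fun A : M₁ => A = 0).card = 1 := by
    rw [Finset.filter_eq']; simp
  have hnot : ((univ.filter fun A : M₁ => ¬A = 0).filter fun A => ¬A.det = 0) =
      univ.filter fun A : M₁ => A.det ≠ 0 := by
    ext A
    simp only [mem_filter, mem_univ, true_and]
    exact ⟨fun h => h.2, fun h => ⟨fun e => h (by rw [e, det_zero]), h⟩⟩
  have hrk : (((univ.filter fun A : M₁ => ¬A = 0).filter fun A => A.det = 0).card : ℝ) =
      (p : ℝ) ^ 4 - 1 - ((p : ℝ) ^ 2 - 1) * ((p : ℝ) ^ 2 - p) := by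
    have e1 := Finset.card_filter_add_card_filter_not (s := univ.filter fun A : M₁ => ¬A = 0)
      (fun A => A.det = 0)
    have e2 := Finset.card_filter_add_card_filter_not (s := (univ : Finset M₁)) (fun A => A = 0)
    rw [hnot] at e1
    rw [h1, Finset.card_univ, show Fintype.card M₁ = (p ^ 2) ^ 2 by
      show Fintype.card (Fin 2 → Fin 2 → ZMod p) = _
      rw [Fintype.card_fun, Fintype.card_fun, ZMod.card, Fintype.card_fin]] at e2
    rw [← hgl', eq_sub_iff_add_eq, eq_sub_iff_add_eq, ← Nat.cast_add, e1]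
    have e3 : ((1 + (univ.filter fun A : M₁ => ¬A = 0).card : ℕ) : ℝ) = ((p ^ (2 * 2) : ℕ) : ℝ) :=
      congrArg Nat.cast (by rw [e2, pow_mul])
    push_cast at e3
    linarith
  rw [h1, hnot, hrk, hgl', Nat.cast_one, one_mul]
  ring

theorem sum_gl2_imageSize (m : ℕ) :
    ∑ g : GL (Fin 2) R[m + 1], (imageSize (g.val - 1) : ℝ) =
      ((p : ℝ) ^ 4 - 2 * (p : ℝ) ^ 3 - (p : ℝ) ^ 2 + 3 * p) *
          ((p : ℝ) ^ (4 * m) * ((p : ℝ) ^ (m + 1) * (p : ℝ) ^ (m + 1))) +
        ((p : ℝ) ^ 3 - 2 * p - 1) * ((p : ℝ) ^ (3 * m) * ((p : ℝ) ^ (m + 1) * idealTotal p m)) +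
        imageTotal p m := by
  let π : GL (Fin 2) R[m + 1] → GL (Fin 2) (ZMod p) :=
    Matrix.GeneralLinearGroup.map (n := Fin 2) (res m)
  rw [← Finset.sum_fiberwise univ π]
  have key : ∀ γ : GL (Fin 2) (ZMod p),
      (∑ g ∈ univ.filter (fun g => π g = γ), (imageSize (g.val - 1) : ℝ)) =
        ∑ A ∈ univ.filter (fun A => resMat m A = γ.val - 1), (imageSize A : ℝ) := by
    intro γ
    refine Finset.sum_bij (fun g _ => g.val - 1) (fun g hg => ?_)
      (fun a _ b _ e => Units.ext (sub_left_injective e)) (fun A hA => ?_) fun g _ => rfl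
    · refine Finset.mem_filter.mpr ⟨Finset.mem_univ _, ?_⟩
      rw [map_sub, map_one, ← (Finset.mem_filter.mp hg).2]
      rfl
    · have hA' : resMat m (A + 1) = γ.val := by
        rw [map_add, (Finset.mem_filter.mp hA).2, map_one, sub_add_cancel]
      have hu : IsUnit (A + 1) := by
        rw [Matrix.isUnit_iff_isUnit_det, isUnit_iff_res, RingHom.map_det]
        show (resMat m (A + 1)).det ≠ 0
        rw [hA']
        exact ((Matrix.isUnit_iff_isUnit_det γ.val).mp γ.isUnit).ne_zero
      refine ⟨hu.unit, Finset.mem_filter.mpr ⟨Finset.mem_univ _, Units.ext ?_⟩, ?_⟩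
      · exact hA'
      · simp
  rw [Finset.sum_congr rfl fun γ _ => (key γ).trans (sum_imageSize_eq m _)]
  have hif : ∀ γ : GL (Fin 2) (ZMod p), (γ.val - 1 = 0 ↔ γ = 1) ∧
      ((γ.val - 1).det = 0 ↔ γ.val.trace = γ.val.det + 1) := fun γ => by
    refine ⟨by rw [sub_eq_zero, ← Units.val_one, Units.ext_iff], ?_⟩
    rw [show (γ.val - 1).det = γ.val.det + 1 - γ.val.trace by
      simp [det_fin_two, trace_fin_two]; ring, sub_eq_zero, eq_comm]
  have h := BashmakovDensity.sum_strata_gl2 (k := ZMod p)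
    ((p : ℝ) ^ (4 * m) * ((p : ℝ) ^ (m + 1) * (p : ℝ) ^ (m + 1)))
    ((p : ℝ) ^ (3 * m) * ((p : ℝ) ^ (m + 1) * idealTotal p m)) (imageTotal p m)
  rw [ZMod.card] at h
  rw [← h]
  refine Finset.sum_congr (Finset.ext fun x => by simp only [Finset.mem_univ]) fun γ _ => ?_
  by_cases h1 : γ = 1
  · rw [if_pos ((hif γ).1.mpr h1), if_pos h1]
  rw [if_neg fun e => h1 ((hif γ).1.mp e), if_neg h1]
  by_cases h2 : γ.val.trace = γ.val.det + 1
  · rw [if_pos ((hif γ).2.mpr h2), if_pos h2]
  · rw [if_neg fun e => h2 ((hif γ).2.mp e), if_neg h2]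

theorem card_gl2_succ (m : ℕ) : (Nat.card (GL (Fin 2) R[m + 1]) : ℝ) =
    (p : ℝ) ^ (4 * m) * (((p : ℝ) ^ 2 - 1) * ((p : ℝ) ^ 2 - p)) := by
  have e : Nat.card (GL (Fin 2) R[m + 1]) =
      (univ.filter fun A : M[m + 1] => (resMat m A).det ≠ 0).card := by
    rw [Nat.card_eq_fintype_card, ← Finset.card_univ]
    refine Finset.card_bij (fun g _ => g.val) (fun g _ => ?_) (fun a _ b _ e => Units.ext e)
      fun A hA => ?_
    · refine Finset.mem_filter.mpr ⟨Finset.mem_univ _, ?_⟩
      rw [resMat, ← RingHom.map_det]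
      exact isUnit_iff_res.mp ((Matrix.isUnit_iff_isUnit_det g.val).mp g.isUnit)
    · have hu : IsUnit A := by
        rw [Matrix.isUnit_iff_isUnit_det, isUnit_iff_res, RingHom.map_det]
        exact (Finset.mem_filter.mp hA).2
      exact ⟨hu.unit, Finset.mem_univ _, rfl⟩
  have hfib : ∀ Ā : M₁, (univ.filter fun A : M[m + 1] => resMat m A = Ā).card = p ^ (4 * m) := by
    intro Ā
    obtain ⟨L, hL⟩ : ∃ L, resMat m L = Ā := by
      choose f hf using fun a b => res_surjective m (Ā a b)
      exact ⟨f, by ext a b; exact hf a b⟩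
    rw [Finset.card_eq_sum_ones, sum_fibre hL, ← Finset.card_eq_sum_ones, Finset.card_univ, card_M]
  have hgl : (univ.filter fun A : M₁ => A.det ≠ 0).card = Nat.card (GL (Fin 2) (ZMod p)) := by
    rw [Nat.card_eq_fintype_card, ← Finset.card_univ]
    refine (Finset.card_bij (fun g _ => g.val) (fun g _ => ?_) (fun a _ b _ e => Units.ext e)
      fun A hA => ?_).symm
    · exact Finset.mem_filter.mpr ⟨Finset.mem_univ _,
        ((Matrix.isUnit_iff_isUnit_det g.val).mp g.isUnit).ne_zero⟩
    · exact ⟨Matrix.GeneralLinearGroup.mkOfDetNeZero A (Finset.mem_filter.mp hA).2,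
        Finset.mem_univ _, rfl⟩
  have hfib' : ∀ Ā ∈ univ.filter fun A : M₁ => A.det ≠ 0,
      ((univ.filter fun A : M[m + 1] => (resMat m A).det ≠ 0).filter
        fun A => resMat m A = Ā).card = p ^ (4 * m) := fun Ā hĀ => by
    rw [← hfib Ā, Finset.filter_filter]
    refine congrArg Finset.card (Finset.filter_congr fun A _ => ?_)
    exact ⟨fun h => h.2, fun h => ⟨h ▸ (Finset.mem_filter.mp hĀ).2, h⟩⟩
  rw [e, Finset.card_eq_sum_card_fiberwise (f := resMat m)
    (t := univ.filter fun A : M₁ => A.det ≠ 0) fun A hA => by simpa using hA,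
    Finset.sum_congr rfl hfib', Finset.sum_const, hgl, FA.TraceDist.card_gl2, ZMod.card,
    smul_eq_mul]
  push_cast [Nat.cast_sub (Nat.one_le_pow 2 _ hp.out.pos),
    Nat.cast_sub (Nat.le_self_pow two_ne_zero p)]
  ring

end FA.OrderDensity

end
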