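import Fermat.Agent.OrderDensity.Lift
import Fermat.Agent.BashmakovDensity.Fibre
import Fermat.Agent.Bashmakov.Irreducible

/-!
# Prescribed `p`-parts of the orders modulo infinitely many primes

Let `σ` have exactly `E[pⁿ]` as fixed points on `E[pⁿ⁺¹]` and, for `pⁿ Q i = P i`, fix `p ^ k i`
times `Q i` but no smaller multiple. At a prime with that Frobenius the points of `p`-power order
are those of order dividing `pⁿ` and the multiples by `pⁿ` are the reductions of fixed points, so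
the order of `P i` is divisible by `p ^ k i` exactly. Powers of an element `1 + p` on `E[p²]` are
`1 + pⁿ` on `E[pⁿ⁺¹]`.
-/

set_option autoImplicit false
set_option linter.style.haveILetI false

noncomputable section

open WeierstrassCurve NumberField IsDedekindDomain FA.Frob FA.EC FA.PointDiv
open scoped WeierstrassCurve.Affine Classical

local notation "Qb" => AlgebraicClosure ℚ
local notation "GQ" => AlgebraicClosure ℚ ≃ₐ[ℚ] AlgebraicClosure ℚ

namespace FA.OrderDensity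

section

variable {G A : Type*} [Group G] [AddCommGroup A] (act : G →* AddMonoid.End A) {p : ℕ}

/-- If `σ` is `1 + pⁿ` on the `pⁿ⁺¹`-torsion, `n ≥ 1`, `p` odd, `σ ^ p` is `1 + pⁿ⁺¹` on the
`pⁿ⁺²`-torsion. -/
theorem act_pow_prime (hp : Odd p) {n : ℕ} (hn : 1 ≤ n) {σ : G}
    (h : ∀ y : A, p ^ (n + 1) • y = 0 → act σ y = y + p ^ n • y) {y : A}
    (hy : p ^ (n + 2) • y = 0) : act (σ ^ p) y = y + p ^ (n + 1) • y := by
  have hkill : ∀ {m : ℕ}, n + 2 ≤ m → p ^ m • y = 0 := fun {m} hm => by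
    rw [← Nat.sub_add_cancel hm, pow_add, mul_nsmul', hy, nsmul_zero]
  set d := act σ y - y with hd
  have hpd : p • d = p ^ (n + 1) • y := by
    rw [hd, nsmul_sub, ← map_nsmul, h (p • y) (by rw [← mul_nsmul', ← pow_succ]; exact hy),
      add_sub_cancel_left, ← mul_nsmul', ← pow_succ]
  have hnd : p ^ n • d = p ^ (n + n) • y := by
    obtain ⟨m, rfl⟩ : ∃ m, n = m + 1 := ⟨n - 1, by omega⟩
    rw [pow_succ, mul_nsmul', hpd, ← mul_nsmul', ← pow_add]
    congr 2
    omega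
  have hy' : act σ y = y + d := by rw [hd, add_sub_cancel]
  have hσd : act σ d = d + p ^ (n + n) • y := by
    have hz : p ^ (n + 1) • (d - p ^ n • y) = 0 := by
      rw [nsmul_sub, ← mul_nsmul', ← pow_add, pow_succ, mul_nsmul', hpd, ← mul_nsmul', ← pow_add,
        sub_eq_zero]
      congr 2
      omega
    have hz' : act σ (d - p ^ n • y) = d - p ^ n • y := by
      rw [h _ hz, nsmul_sub, hnd, ← mul_nsmul', ← pow_add, sub_self, add_zero]
    conv_lhs => rw [← sub_add_cancel d (p ^ n • y)]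
    rw [map_add, hz', map_nsmul, hy', nsmul_add, hnd, ← add_assoc, sub_add_cancel]
  have hσe : act σ (p ^ (n + n) • y) = p ^ (n + n) • y := by
    rw [map_nsmul, hy', nsmul_add, show p ^ (n + n) • d = 0 by
      rw [pow_add, mul_nsmul' d, hnd, ← mul_nsmul', ← pow_add, hkill (by omega)], add_zero]
  have hpow : ∀ i : ℕ, act (σ ^ i) y = y + i • d + i.choose 2 • p ^ (n + n) • y := by
    intro i
    induction i with
    | zero =>
      rw [pow_zero, map_one, zero_nsmul, Nat.choose_zero_succ, zero_nsmul, add_zero, add_zero]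
      rfl
    | succ i ih =>
      rw [pow_succ', FA.Bashmakov.act_mul, ih, map_add, map_add, map_nsmul, map_nsmul, hy', hσd,
        hσe, nsmul_add, Nat.choose_succ_succ', Nat.choose_one_right, add_nsmul, add_nsmul,
        one_nsmul]
      abel
  obtain ⟨m, hm⟩ := hp
  have hch : p.choose 2 = m * p := by
    rw [Nat.choose_two_right, show p - 1 = 2 * m by omega, mul_left_comm,
      Nat.mul_div_cancel_left _ two_pos, mul_comm]
  have hlast : p ^ (n + n + 1) • y = 0 := hkill (by omega)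
  rw [hpow, hpd, hch, mul_nsmul', ← mul_nsmul' y p, ← pow_succ', hlast, nsmul_zero, add_zero]

/-- **Powers of `1 + p` on the `p²`-torsion give `1 + pⁿ` on the `pⁿ⁺¹`-torsion.** -/
theorem exists_act_one_add (hp : Odd p) {σ : G}
    (h : ∀ y : A, p ^ 2 • y = 0 → act σ y = y + p • y) {n : ℕ} (hn : 1 ≤ n) :
    ∃ τ, ∀ y : A, p ^ (n + 1) • y = 0 → act τ y = y + p ^ n • y := by
  induction n, hn using Nat.le_induction with
  | base => exact ⟨σ, fun y hy => by rw [pow_one]; exact h y hy⟩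
  | succ n hn ih =>
    obtain ⟨τ, hτ⟩ := ih
    exact ⟨τ ^ p, fun y hy => act_pow_prime act hp hn hτ hy⟩

end

section

variable {B : Type*} [AddCommGroup B] [Finite B] {p : ℕ}

/-- Without elements of order `pⁿ⁺¹` the multiples by `pⁿ` have order prime to `p`. -/
theorem not_dvd_addOrderOf_nsmul {n : ℕ} (hp : p.Prime)
    (h : ∀ X : B, p ^ (n + 1) • X = 0 → p ^ n • X = 0) (R : B) :
    ¬ p ∣ addOrderOf (p ^ n • R) := by
  rintro ⟨m, hm⟩
  have hpos : 0 < addOrderOf (p ^ n • R) := (isOfFinAddOrder_of_finite _).addOrderOf_pos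
  have hm0 : 0 < m := Nat.pos_of_ne_zero fun e => by rw [e, mul_zero] at hm; omega
  have h0 := h (m • R) (by
    rw [smul_comm, pow_succ', mul_nsmul', smul_comm m p, ← mul_nsmul', ← hm]
    exact addOrderOf_nsmul_eq_zero _)
  rw [smul_comm] at h0
  have := Nat.le_of_dvd hm0 (addOrderOf_dvd_of_nsmul_eq_zero h0)
  nlinarith [hp.two_le]

omit [Finite B] in
/-- The order is not divisible by `p ^ (k + 1)` if that of the `p ^ k`-th multiple is prime to
`p`. -/
theorem not_pow_succ_dvd_addOrderOf {k : ℕ} (hp : p.Prime) {X : B}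
    (h : ¬ p ∣ addOrderOf (p ^ k • X)) : ¬ p ^ (k + 1) ∣ addOrderOf X := fun hd => h (by
  have h1 : addOrderOf X ∣ addOrderOf (p ^ k • X) * p ^ k :=
    addOrderOf_dvd_of_nsmul_eq_zero (by rw [mul_nsmul', addOrderOf_nsmul_eq_zero])
  rw [pow_succ', mul_comm (addOrderOf _)] at *
  rw [mul_comm p] at hd
  exact (Nat.mul_dvd_mul_iff_left (pow_pos hp.pos k)).mp (hd.trans h1))

omit [Finite B] in
/-- If `p ^ (k + 1)` does not divide the order, the `p ^ k`-th multiple is a multiple by `pⁿ`. -/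
theorem exists_nsmul_eq_of_not_dvd {k n : ℕ} (hp : p.Prime) {X : B}
    (h : ¬ p ^ (k + 1) ∣ addOrderOf X) : ∃ R : B, p ^ n • R = p ^ k • X := by
  obtain ⟨j, -, hj⟩ := (Nat.dvd_prime_pow hp).mp (Nat.gcd_dvd_left (p ^ n) (addOrderOf X))
  have hjk : j ≤ k := by
    by_contra hcon
    exact h ((pow_dvd_pow p (show k + 1 ≤ j by omega)).trans
      (hj ▸ Nat.gcd_dvd_right (p ^ n) (addOrderOf X)))
  obtain ⟨c, hc⟩ := pow_dvd_pow p hjk
  have hbez := Nat.gcd_eq_gcd_ab (p ^ n) (addOrderOf X)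
  rw [hj] at hbez
  refine ⟨((c : ℤ) * Nat.gcdA (p ^ n) (addOrderOf X)) • X, ?_⟩
  have e : ((p ^ k : ℕ) : ℤ) = (p ^ n : ℕ) * ((c : ℤ) * Nat.gcdA (p ^ n) (addOrderOf X)) +
      ((c : ℤ) * Nat.gcdB (p ^ n) (addOrderOf X)) * (addOrderOf X : ℤ) := by
    rw [hc, Nat.cast_mul, hbez]; ring
  rw [← natCast_zsmul X (p ^ k), e, add_zsmul, mul_zsmul _ _ (addOrderOf X : ℤ), natCast_zsmul,
    addOrderOf_nsmul_eq_zero, zsmul_zero, add_zero, ← natCast_zsmul _ (p ^ n)]
  simp only [mul_zsmul]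

end

variable {W : WeierstrassCurve ℤ} [(ratCurve W).IsElliptic] {p : ℕ} [hp : Fact p.Prime]

/-- **The `p`-parts of the orders modulo infinitely many primes**, given one element of Galois. -/
theorem infinite_pow_dvd_addOrderOf {ι : Type} [Finite ι] {x y : ι → ℚ}
    (h : ∀ i, (ratCurve W).toAffine.Nonsingular (x i) (y i)) {n : ℕ} {k : ι → ℕ}
    (hσ : ∃ σ : GQ, (∀ T, fibHom W (p ^ (n + 1)) 0 σ T = T ↔ p ^ n • T.1 = 0) ∧
      ∀ i, ∃ Q : Fib W (p ^ n) (.some (x i) (y i) (h i)),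
        p ^ k i • (fibHom W (p ^ n) _ σ Q).1 = p ^ k i • Q.1 ∧
          ∀ j < k i, p ^ j • (fibHom W (p ^ n) _ σ Q).1 ≠ p ^ j • Q.1) :
    {q : ℕ | q.Prime ∧ ∃ _ : Fact q.Prime, ∀ i,
      ∃ k' : (W.map (Int.castRingHom (ZMod q))).toAffine.Nonsingular (x i : ZMod q) (y i),
      p ^ k i ∣ addOrderOf (Affine.Point.some (x i : ZMod q) (y i : ZMod q) k') ∧
        ¬ p ^ (k i + 1) ∣
          addOrderOf (Affine.Point.some (x i : ZMod q) (y i : ZMod q) k')}.Infinite := by
  let _ : Fintype ι := Fintype.ofFinite ι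
  have hpn : ∀ m, p ^ m ≠ 0 := fun m => pow_ne_zero m hp.out.ne_zero
  set P := fun i => Affine.Point.some (x i) (y i) (h i) with hP
  set f₀ := fibHom W (p ^ (n + 1)) 0 with hf₀
  have := fun i => finite_fib W (hpn n) (P i)
  have := finite_fib W (hpn (n + 1)) 0
  set f := f₀.prod (MonoidHom.pi fun i => fibHom W (p ^ n) (P i)) with hf
  let _ : Fintype f.range := Fintype.ofFinite _
  set π := f.rangeRestrict with hπdef
  let X : Set f.range := {g | (∀ T, g.1.1 T = T ↔ p ^ n • T.1 = 0) ∧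
    ∀ i, ∃ Q, p ^ k i • (g.1.2 i Q).1 = p ^ k i • Q.1 ∧
      ∀ j < k i, p ^ j • (g.1.2 i Q).1 ≠ p ^ j • Q.1}
  have hX : ∀ g ∈ X, ∀ z, z * g * z⁻¹ ∈ X := by
    rintro g ⟨hT, hQ⟩ ⟨_, τ, rfl⟩
    refine ⟨fun T => ?_, fun i => ?_⟩
    · show f₀ τ (g.1.1 ((f₀ τ).symm T)) = T ↔ _
      rw [← Equiv.eq_symm_apply, hT]
      show p ^ n • (τ⁻¹ • T.1) = 0 ↔ _
      rw [← smul_nat, smul_eq_iff_eq_inv_smul, inv_inv,
        show τ • (0 : ((ratCurve W).toAffine⁄Qb).Point) = 0 from
          FA.Local.gal_smul_zero (ratCurve W) τ]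
    · obtain ⟨Q, hQ, hQ'⟩ := hQ i
      set fi := fibHom W (p ^ n) (P i)
      refine ⟨fi τ Q, ?_, fun j hj e => hQ' j hj ?_⟩
      · show p ^ k i • (fi τ (g.1.2 i ((fi τ).symm (fi τ Q)))).1 = _
        rw [Equiv.symm_apply_apply]
        show p ^ k i • (τ • (g.1.2 i Q).1) = p ^ k i • (τ • Q.1)
        rw [← smul_nat, hQ, smul_nat]
      · replace e : p ^ j • (fi τ (g.1.2 i ((fi τ).symm (fi τ Q)))).1 = p ^ j • (fi τ Q).1 := e
        rw [Equiv.symm_apply_apply] at e
        replace e : p ^ j • (τ • (g.1.2 i Q).1) = p ^ j • (τ • Q.1) := e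
        rwa [← smul_nat, ← smul_nat, smul_left_cancel_iff] at e
  have hker : IsOpen (π.ker : Set GQ) := by
    rw [hπdef, MonoidHom.ker_rangeRestrict, hf, MonoidHom.ker_prod, Subgroup.coe_inf]
    refine (isOpen_ker_fibHom W (hpn _) _).inter ?_
    have e1 : ((MonoidHom.pi fun i => fibHom W (p ^ n) (P i)).ker : Set GQ) =
        ⋂ i, ((fibHom W (p ^ n) (P i)).ker : Set GQ) := by
      ext σ; simp [funext_iff]
    rw [e1]
    exact isOpen_iInter_of_finite fun i => isOpen_ker_fibHom W (hpn _) _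
  have hd := FA.Chebotarev.hasDirichletDensity_frobSet π (MonoidHom.rangeRestrict_surjective _)
    hker hX
  have hpos : (Nat.card X : ℝ) / Fintype.card f.range ≠ 0 := by
    obtain ⟨σ, hσ₁, hσ₂⟩ := hσ
    have : Nonempty X := ⟨⟨π σ, hσ₁, hσ₂⟩⟩
    exact div_ne_zero (Nat.cast_ne_zero.mpr Nat.card_pos.ne')
      (Nat.cast_ne_zero.mpr Fintype.card_ne_zero)
  set N : ℕ := W.Δ.natAbs * p * ∏ i, (x i).den * (y i).den with hN
  have hN0 : N ≠ 0 := by
    have hΔ : W.Δ.natAbs ≠ 0 := fun e => (ratCurve W).isUnit_Δ.ne_zero (by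
      simp [ratCurve, Int.natAbs_eq_zero.mp e])
    simp [hN, hΔ, hp.out.ne_zero, Finset.prod_ne_zero_iff]
  have hT : (FA.Chebotarev.frobSet π X \ {v | Ideal.absNorm v.asIdeal ∣ N}).HasDirichletDensity
      ((Nat.card X : ℝ) / Fintype.card f.range) :=
    FA.TraceDist.hasDirichletDensity_congr hd (finite_absNorm_dvd hN0)
      fun v hv => ⟨fun h => ⟨h, hv⟩, fun h => h.1⟩
  have hinf := FA.Chebotarev.infinite_of_hasDirichletDensity hT hpos
  have hIm : ((fun v : HeightOneSpectrum (𝓞 ℚ) => Ideal.absNorm v.asIdeal) ''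
      (FA.Chebotarev.frobSet π X \ {v | Ideal.absNorm v.asIdeal ∣ N})).Infinite := fun hfin => by
    have hI := Set.Finite.biUnion hfin fun q _ => Ideal.finite_setOfPred_absNorm_eq (S := 𝓞 ℚ) q
    exact hinf ((hI.preimage (f := fun v : HeightOneSpectrum (𝓞 ℚ) => v.asIdeal)
      fun a _ b _ e => HeightOneSpectrum.ext e).subset fun v hv =>
        Set.mem_biUnion (Set.mem_image_of_mem _ hv) rfl)
  refine hIm.mono ?_
  rintro _ ⟨v, ⟨hfr, hv⟩, rfl⟩
  have hq := FA.Chebotarev.absNorm_prime v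
  haveI := Fact.mk hq
  set q := Ideal.absNorm v.asIdeal
  have hnd : ∀ {m : ℕ}, m ∣ N → ¬ q ∣ m := fun hm e => hv (e.trans hm)
  have hgood : W.IsGoodPrimeFor q := fun e =>
    hnd ((dvd_mul_right _ p).mul_right _) (Int.natCast_dvd.mp e)
  have hqp : q ≠ p := fun e => hnd ((dvd_mul_left p _).mul_right _) (e ▸ dvd_rfl)
  haveI := reductionMod_isElliptic W hgood
  obtain ⟨A, hA⟩ := FA.Deform.exists_liesOverPrime hq
  obtain ⟨σ, hσ⟩ := FA.Deform.exists_isFrobeniusAt hq hA
  haveI : CharP (Res A) q := residueField_charP A hq hA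
  haveI := redCurve_isElliptic (intCoeff_ratCurve W A) (valuation_Δ_ratCurve W hq hA hgood)
  obtain ⟨htor, hall⟩ := hfr A hA σ hσ
  -- no point of order `pⁿ⁺¹` modulo `q`
  have hno : ∀ R : (W.map (Int.castRingHom (ZMod q))).toAffine.Point,
      p ^ (n + 1) • R = 0 → p ^ n • R = 0 := fun R hR => by
    by_contra hR'
    obtain ⟨T, hT0, hσT, hT'⟩ := exists_fixed_torsion hp.out hgood hqp hR hR' hA hσ
    exact hT' ((htor ⟨T, hT0.trans (map_zero (up W)).symm⟩).mp (Subtype.ext hσT))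
  refine ⟨hq, inferInstance, fun i => ?_⟩
  have hi : (x i).den * (y i).den ∣ N :=
    (Finset.dvd_prod_of_mem (fun i => (x i).den * (y i).den) (Finset.mem_univ i)).mul_left _
  obtain ⟨k', hPq⟩ := redHom_up W hA hgood (h i) (hnd ((dvd_mul_right _ _).trans hi))
    (hnd ((dvd_mul_left _ _).trans hi))
  obtain ⟨Q, hQ, hQ'⟩ := hall i
  replace hQ : σ • (p ^ k i • Q.1) = p ^ k i • Q.1 := by rw [smul_nat]; exact hQ
  refine ⟨k', ?_, not_pow_succ_dvd_addOrderOf hp.out ?_⟩
  · cases hki : k i with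
    | zero => rw [pow_zero]; exact one_dvd _
    | succ j =>
      by_contra hnot
      obtain ⟨R, hR⟩ := exists_nsmul_eq_of_not_dvd (n := n) hp.out hnot
      obtain ⟨Y, hY, hσY, -⟩ := exists_fixed_lift (n := n) hp.out hgood hqp hA hσ
        (Z := p ^ j • up W (P i)) (by rw [smul_nat, smul_up]) (R := R)
        (by rw [hR, map_nsmul, map_nsmul, hPq])
      have hD : p ^ n • (Y - p ^ j • Q.1) = 0 := by
        rw [nsmul_sub, hY, smul_comm, Q.2, sub_self]
      have hfixD := congrArg Subtype.val ((htor ⟨Y - p ^ j • Q.1, by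
        rw [pow_succ', mul_nsmul', hD, nsmul_zero]; exact (map_zero (up W)).symm⟩).mpr hD)
      replace hfixD : σ • (Y - p ^ j • Q.1) = Y - p ^ j • Q.1 := hfixD
      rw [FA.Local.gal_smul_sub (ratCurve W) σ, hσY, sub_right_inj, smul_nat] at hfixD
      exact hQ' j (by omega) hfixD
  · obtain ⟨R, hR⟩ := FA.BashmakovDensity.exists_red_eq_of_fixed hgood hA hσ hQ
    have : p ^ n • R = p ^ k i • Affine.Point.some (x i : ZMod q) (y i : ZMod q) k' := by
      refine mapHom_injective (ZMod.castHom (dvd_refl q) (Res A)) (map_castHom W (A := A)) ?_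
      rw [map_nsmul, map_nsmul, hR, ← hPq, ← map_nsmul, ← map_nsmul, smul_comm, Q.2]
    rw [← this]
    exact not_dvd_addOrderOf_nsmul hp.out hno R

end FA.OrderDensity

end
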