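import Fermat.Agent.OrderDensity.Translations
import Fermat.Agent.OrderDensity.Prescribed
import Fermat.Agent.Root.SummaryOrderPrescribed
import Fermat.Agent.Faltings.Lemma

/-!
# Exact `p`-parts of the orders modulo infinitely many primes, at every prime

Let a Frobenius `F` at a good prime fix `E[p ^ (B + k)]` and a `pᴮ`-th part of `P`. It fixes no
point of large `p`-power order, and composed with a suitable element fixing `E[pᴸ]` it translates a
`pᴸ`-th part of `P` by an element whose class modulo `(F - 1) E[pᴸ]` has order exactly `p ^ k`. At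
the primes with that Frobenius `p ^ k` divides the order of `P` exactly.
-/

set_option autoImplicit false
set_option linter.style.haveILetI false

noncomputable section

open WeierstrassCurve FA.Frob FA.EC FA.PointDiv
open scoped WeierstrassCurve.Affine Classical

local notation "Qb" => AlgebraicClosure ℚ
local notation "GQ" => AlgebraicClosure ℚ ≃ₐ[ℚ] AlgebraicClosure ℚ

namespace FA.OrderDensity

variable (W : WeierstrassCurve ℤ) [(ratCurve W).IsElliptic] {p : ℕ} [hp : Fact p.Prime]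

/-- **An element translating a part of `P` by a class of exact order `p ^ k`**, with no fixed point
of order `p ^ (M + 1)`. -/
theorem exists_translation_exact {P : (ratCurve W).toAffine.Point} (hP : ¬ IsOfFinAddOrder P)
    (k : ℕ) :
    ∃ (M : ℕ) (σ : GQ),
      (∀ T : ((ratCurve W).toAffine⁄Qb).Point,
        p ^ (M + 1) • T = 0 → σ • T = T → p ^ M • T = 0) ∧
      ∃ Q, p ^ (M + 1) • Q = up W P ∧
        (∃ u, p ^ (M + 1) • u = 0 ∧ p ^ k • (σ • Q - Q) = σ • u - u) ∧
        ∀ j < k, ∀ w, p ^ (M + 1) • w = 0 → p ^ j • (σ • Q - Q) ≠ σ • w - w := by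
  have hW : W.IsIntegralModelOf (ratCurve W) := ⟨1, one_smul _ _⟩
  obtain ⟨B, hB⟩ := exists_bound_translations W (p := p) hP
  have hpn : ∀ m, p ^ m ≠ 0 := fun m => pow_ne_zero m hp.out.ne_zero
  have := finite_fib W (hpn (B + k)) 0
  have := finite_fib W (hpn B) P
  set f := (fibHom W (p ^ (B + k)) 0).prod (fibHom W (p ^ B) P) with hf
  have hopen : IsOpen (f.ker : Set GQ) := by
    rw [hf, MonoidHom.ker_prod, Subgroup.coe_inf]
    exact (isOpen_ker_fibHom W (hpn _) _).inter (isOpen_ker_fibHom W (hpn _) _)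
  obtain ⟨l, hl, hlS, A, hA, F, hF, hF1⟩ := FA.Faltings.exists_frobenius_coset f.ker hopen
    (insert p W.Δ.natAbs.divisors) 1
  simp only [Finset.mem_insert, Nat.mem_divisors, not_or, not_and] at hlS
  have hgood : W.IsGoodPrimeFor l := fun e => hlS.2 (Int.natCast_dvd.mp e)
    (Int.natAbs_ne_zero.mpr (Δ_ne_zero_of_model hW))
  haveI := Fact.mk hl
  have hker := MonoidHom.mem_ker.mp ((QuotientGroup.eq_one_iff F).mp hF1)
  have hFtor : ∀ y : ((ratCurve W).toAffine⁄Qb).Point, p ^ (B + k) • y = 0 → F • y = y :=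
    fun y hy => congrArg Subtype.val (Equiv.congr_fun (congrArg Prod.fst hker)
      ⟨y, hy.trans (map_zero (up W)).symm⟩)
  have hFP : ∀ R, p ^ B • R = up W P → F • R = R := fun R hR =>
    congrArg Subtype.val (Equiv.congr_fun (congrArg Prod.snd hker) ⟨R, hR⟩)
  set a := W.apOfModel l
  set n : ℤ := l + 1 - a with hn
  have hn0 : n ≠ 0 := by
    have hb : a ^ 2 ≤ 4 * (l : ℤ) := by
      rw [show a = W.apOfModel l from rfl, ← FA.Root.LFunction_apply_prime _ W hW hl hgood]
      exact FA.Summary.hasse_LFunction _ W 1 (one_smul _ _) hl hgood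
    have h2 : (2 : ℤ) ≤ l := by exact_mod_cast hl.two_le
    intro h0
    have ha : a = l + 1 := by omega
    nlinarith
  set M := n.natAbs + B + k with hM
  obtain ⟨Q, hQ⟩ := exists_div W (hpn (M + 1)) (up W P)
  have hd₀ : p ^ (M + 1 - B) • (F • Q - Q) = 0 := by
    have h := hFP (p ^ (M + 1 - B) • Q)
      (by rw [← mul_nsmul', ← pow_add, Nat.add_sub_cancel' (by omega), hQ])
    rw [nsmul_sub, ← smul_nat, h, sub_self]
  have him : ∀ w : ((ratCurve W).toAffine⁄Qb).Point, p ^ (M + 1) • w = 0 →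
      p ^ (M + 1 - (B + k)) • (F • w - w) = 0 := fun w hw => by
    rw [nsmul_sub, ← smul_nat, hFtor (p ^ (M + 1 - (B + k)) • w)
      (by rw [← mul_nsmul', ← pow_add, Nat.add_sub_cancel' (by omega), hw]), sub_self]
  obtain ⟨⟨s, hs⟩, hs1, hs2⟩ := exists_torsion_exact (ratCurve W) hp.out (Nat.sub_le M B)
  have hs1' : p ^ (M - B + 1) • s = 0 := congrArg Subtype.val hs1
  have hs2' : p ^ (M - B) • s ≠ 0 := fun e => hs2 (Subtype.ext e)
  let I : Set ℕ := {i | ∃ w, p ^ (M + 1) • w = 0 ∧ p ^ i • s = F • w - w}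
  have hI : ∃ i, i ∈ I := ⟨M - B + 1, 0, nsmul_zero _, by
    rw [hs1', sub_zero]; exact (FA.Local.gal_smul_zero _ F).symm⟩
  set i := Nat.find hI
  have hki : k ≤ i := by
    by_contra hlt
    obtain ⟨w, hw, e⟩ := Nat.find_spec hI
    have h0 : p ^ (M + 1 - (B + k) + i) • s = 0 := by rw [pow_add, mul_nsmul', e, him w hw]
    refine hs2' ?_
    rw [show M - B = M - B - (M + 1 - (B + k) + i) + (M + 1 - (B + k) + i) by omega, pow_add,
      mul_nsmul', h0, nsmul_zero]
  set t := p ^ (i - k) • s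
  obtain ⟨g, hg, hgQ⟩ := hB (M + 1) Q hQ (t - (F • Q - Q)) (by
    rw [nsmul_sub, hd₀, sub_zero, show t = p ^ (i - k) • s from rfl, smul_comm,
      show M + 1 - B = M - B + 1 by omega, hs1', nsmul_zero])
  have hFk : ∀ y : ((ratCurve W).toAffine⁄Qb).Point, p ^ (M + 1) • y = 0 →
      (g * F) • y = F • y := fun y hy => by
    rw [mul_smul]
    exact hg _ (by rw [← smul_nat, hy]; exact FA.Local.gal_smul_zero _ F)
  have hσQ : (g * F) • Q - Q = t := by
    rw [mul_smul, show F • Q = Q + (F • Q - Q) by rw [add_sub_cancel],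
      FA.Local.gal_smul_add (ratCurve W) g, hgQ,
      hg (F • Q - Q) (by rw [nsmul_sub, ← smul_nat, hQ, smul_up, sub_self])]
    abel
  refine ⟨M, g * F, fun T hT hfix => ?_, Q, hQ, ?_, fun j hj w hw e => ?_⟩
  · rw [hFk T hT] at hfix
    have hr := (FA.RT.Tate.frobenius_relations (W := W) (p := p) hl hA
      (show l ≠ p from hlS.1) hgood hF).1 (M + 1) T hT
    rw [hfix, hfix] at hr
    have hnT : n • T = 0 := by rw [← hr, hn]; module
    obtain ⟨e, -, he⟩ := (Nat.dvd_prime_pow hp.out).mp (addOrderOf_dvd_of_nsmul_eq_zero hT)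
    have h1 := Int.natCast_dvd.mp (addOrderOf_dvd_iff_zsmul_eq_zero.mpr hnT)
    rw [he] at h1
    have h2 := (Nat.lt_pow_self hp.out.one_lt (n := e)).le.trans
      (Nat.le_of_dvd (Int.natAbs_pos.mpr hn0) h1)
    exact addOrderOf_dvd_iff_nsmul_eq_zero.mp (he ▸ pow_dvd_pow p (show e ≤ M by omega))
  · obtain ⟨w, hw, e⟩ := Nat.find_spec hI
    exact ⟨w, hw, by rw [hσQ, hFk w hw, ← mul_nsmul', ← pow_add, Nat.add_sub_cancel' hki, e]⟩
  · rw [hσQ, hFk w hw, ← mul_nsmul', ← pow_add] at e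
    exact Nat.find_min hI (show j + (i - k) < i by omega) ⟨w, hw, e⟩

/-- **The exact `p`-parts of the orders modulo infinitely many primes**, given such an element. -/
theorem infinite_exact_addOrderOf {x y : ℚ} (h : (ratCurve W).toAffine.Nonsingular x y) {M k : ℕ}
    {σ : GQ} (hfix : ∀ T : ((ratCurve W).toAffine⁄Qb).Point,
      p ^ (M + 1) • T = 0 → σ • T = T → p ^ M • T = 0)
    {Q : ((ratCurve W).toAffine⁄Qb).Point} (hQ : p ^ (M + 1) • Q = up W (.some x y h))
    (hu : ∃ u, p ^ (M + 1) • u = 0 ∧ p ^ k • (σ • Q - Q) = σ • u - u)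
    (hmin : ∀ j < k, ∀ w, p ^ (M + 1) • w = 0 → p ^ j • (σ • Q - Q) ≠ σ • w - w) :
    {q : ℕ | q.Prime ∧ ∃ _ : Fact q.Prime,
      ∃ k' : (W.map (Int.castRingHom (ZMod q))).toAffine.Nonsingular (x : ZMod q) y,
        p ^ k ∣ addOrderOf (Affine.Point.some (x : ZMod q) (y : ZMod q) k') ∧
          ¬ p ^ (k + 1) ∣
            addOrderOf (Affine.Point.some (x : ZMod q) (y : ZMod q) k')}.Infinite := by
  intro hfin
  have hpn : ∀ m, p ^ m ≠ 0 := fun m => pow_ne_zero m hp.out.ne_zero
  have := finite_fib W (hpn (M + 1)) 0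
  have := finite_fib W (hpn (M + 1)) (.some x y h)
  set f := (fibHom W (p ^ (M + 1)) 0).prod (fibHom W (p ^ (M + 1)) (.some x y h)) with hf
  have hopen : IsOpen (f.ker : Set GQ) := by
    rw [hf, MonoidHom.ker_prod, Subgroup.coe_inf]
    exact (isOpen_ker_fibHom W (hpn _) _).inter (isOpen_ker_fibHom W (hpn _) _)
  set D := W.Δ.natAbs * p * x.den * y.den with hD
  have hD0 : D ≠ 0 := by
    have hΔ : W.Δ.natAbs ≠ 0 := fun e => (ratCurve W).isUnit_Δ.ne_zero (by
      simp [ratCurve, Int.natAbs_eq_zero.mp e])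
    simp [hD, hΔ, hp.out.ne_zero]
  obtain ⟨q, hq, hqS, A, hA, F, hF, hF1⟩ := FA.Faltings.exists_frobenius_coset f.ker hopen
    (hfin.toFinset ∪ D.divisors) (σ : GQ ⧸ f.ker)
  simp only [Finset.mem_union, Set.Finite.mem_toFinset, Nat.mem_divisors, not_or, not_and] at hqS
  have hnd : ∀ {m : ℕ}, m ∣ D → ¬ q ∣ m := fun hm e => hqS.2 (e.trans hm) hD0
  have hgood : W.IsGoodPrimeFor q := fun e =>
    hnd (((dvd_mul_right _ p).mul_right x.den).mul_right y.den) (Int.natCast_dvd.mp e)
  have hqp : q ≠ p := fun e =>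
    hnd (((dvd_mul_left p _).mul_right x.den).mul_right y.den) (e ▸ dvd_rfl)
  have hker := MonoidHom.mem_ker.mp (QuotientGroup.eq.mp hF1)
  have hact : ∀ (P' : (ratCurve W).toAffine.Point) (z : ((ratCurve W).toAffine⁄Qb).Point),
      (P' = 0 ∨ P' = .some x y h) → p ^ (M + 1) • z = up W P' → F • z = σ • z := by
    rintro P' z (rfl | rfl) hz
    · have e := congrArg Subtype.val (Equiv.congr_fun (congrArg Prod.fst hker) ⟨z, hz⟩)
      replace e : (F⁻¹ * σ) • z = z := e
      rwa [mul_smul, inv_smul_eq_iff, eq_comm] at e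
    · have e := congrArg Subtype.val (Equiv.congr_fun (congrArg Prod.snd hker) ⟨z, hz⟩)
      replace e : (F⁻¹ * σ) • z = z := e
      rwa [mul_smul, inv_smul_eq_iff, eq_comm] at e
  have hFQ : F • Q = σ • Q := hact _ Q (Or.inr rfl) hQ
  have hF0 : ∀ {z : ((ratCurve W).toAffine⁄Qb).Point}, p ^ (M + 1) • z = 0 → F • z = σ • z :=
    fun {z} hz => hact 0 z (Or.inl rfl) (hz.trans (map_zero (up W)).symm)
  haveI := Fact.mk hq
  haveI := reductionMod_isElliptic W hgood
  haveI : CharP (Res A) q := residueField_charP A hq hA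
  haveI := redCurve_isElliptic (intCoeff_ratCurve W A) (valuation_Δ_ratCurve W hq hA hgood)
  obtain ⟨k', hPq⟩ := redHom_up W hA hgood h (hnd ((dvd_mul_left x.den _).mul_right y.den))
    (hnd (dvd_mul_left y.den _))
  refine hqS.1 ⟨hq, inferInstance, k', ?_, not_pow_succ_dvd_addOrderOf hp.out ?_⟩
  · cases k with
    | zero => rw [pow_zero]; exact one_dvd _
    | succ j =>
      by_contra hnot
      obtain ⟨R, hR⟩ := exists_nsmul_eq_of_not_dvd (n := M + 1) hp.out hnot
      obtain ⟨Y, hY, hFY, -⟩ := exists_fixed_lift (n := M + 1) hp.out hgood hqp hA hF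
        (Z := p ^ j • up W (.some x y h)) (by rw [smul_nat, smul_up]) (R := R)
        (by rw [hR, map_nsmul, map_nsmul, hPq])
      have hw : p ^ (M + 1) • (p ^ j • Q - Y) = 0 := by
        rw [nsmul_sub, hY, smul_comm, hQ, sub_self]
      refine hmin j j.lt_succ_self _ hw ?_
      rw [← hF0 hw, FA.Local.gal_smul_sub (ratCurve W) F, hFY, smul_nat W F, hFQ, nsmul_sub]
      abel
  · obtain ⟨u, hu0, hu⟩ := hu
    have hY : F • (p ^ k • Q - u) = p ^ k • Q - u := by
      rw [FA.Local.gal_smul_sub (ratCurve W) F, smul_nat W F, hFQ, hF0 hu0,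
        sub_eq_sub_iff_sub_eq_sub, ← nsmul_sub]
      exact hu
    obtain ⟨R, hR⟩ := FA.BashmakovDensity.exists_red_eq_of_fixed hgood hA hF hY
    have e : p ^ (M + 1) • R = p ^ k • Affine.Point.some (x : ZMod q) (y : ZMod q) k' := by
      refine mapHom_injective (ZMod.castHom (dvd_refl q) (Res A)) (map_castHom W (A := A)) ?_
      rw [map_nsmul, map_nsmul, hR, ← hPq, ← map_nsmul, ← map_nsmul, nsmul_sub, hu0, sub_zero,
        smul_comm, hQ]
    have hno : ∀ X : (W.map (Int.castRingHom (ZMod q))).toAffine.Point,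
        p ^ (M + 1) • X = 0 → p ^ M • X = 0 := fun X hX => by
      by_contra hX'
      obtain ⟨T, hT0, hFT, hT'⟩ := exists_fixed_torsion hp.out hgood hqp hX hX' hA hF
      exact hT' (hfix T hT0 ((hF0 hT0).symm.trans hFT))
    rw [← e, pow_succ', mul_nsmul']
    exact fun hd => not_dvd_addOrderOf_nsmul hp.out hno R (hd.trans
      (addOrderOf_dvd_of_nsmul_eq_zero (by rw [smul_comm, addOrderOf_nsmul_eq_zero, nsmul_zero])))

end FA.OrderDensity

end
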