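import Fermat.Agent.OrderDensity.Limit
import Fermat.Agent.Root.SummaryBashmakov
import Fermat.Agent.Root.SummaryPointDivisibility

/-!
# The affine group on a fibre of multiplication by `pᵐ⁺¹`

In Bashmakov's situation Galois acts on the fibre over `P` through the whole affine group of
`(ℤ/pᵐ⁺¹)²`: this gives the proportion of elements with a fixed point and bounds that of those
whose linear part fixes a point of exact order `pᵐ⁺¹`.
-/

set_option autoImplicit false
set_option linter.style.haveILetI false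
set_option linter.unusedSectionVars false

noncomputable section

open Matrix WeierstrassCurve FA.Frob FA.PointDiv
open scoped WeierstrassCurve.Affine Classical

local notation "Qb" => AlgebraicClosure ℚ
local notation "GQ" => AlgebraicClosure ℚ ≃ₐ[ℚ] AlgebraicClosure ℚ

namespace FA.OrderDensity

variable {W : WeierstrassCurve ℤ} [(ratCurve W).IsElliptic] {p : ℕ} [hp : Fact p.Prime]

local notation "R[" m "]" => ZMod (p ^ m)

/-- A fixed point of an affine map of `(ℤ/pⁿ)²`. -/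
theorem exists_fixed_iff_mem_range {n : ℕ} (g : Matrix (Fin 2) (Fin 2) R[n])
    (t : Fin 2 → R[n]) :
    (∃ v, g *ᵥ v + t = v) ↔ t ∈ Set.range fun v => (g - 1) *ᵥ v := by
  constructor
  · rintro ⟨v, hv⟩
    refine ⟨-v, ?_⟩
    show (g - 1) *ᵥ -v = t
    rw [mulVec_neg, sub_mulVec, one_mulVec, neg_sub]
    exact sub_eq_iff_eq_add'.mpr hv.symm
  · rintro ⟨w, rfl⟩
    refine ⟨-w, ?_⟩
    simp only [sub_mulVec, one_mulVec, mulVec_neg]
    abel

/-- The fixed points in the fibre. -/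
def fixSet (p m : ℕ) (P : (ratCurve W).toAffine.Point) :
    Set (fibHom W (p ^ (m + 1)) P).range :=
  {g | ∃ Q, g.1 Q = Q}

/-- The elements moving two points a primitive distance apart by the same. -/
def exactSet (p m : ℕ) (P : (ratCurve W).toAffine.Point) :
    Set (fibHom W (p ^ (m + 1)) P).range :=
  {g | ∃ Q Q' : Fib W (p ^ (m + 1)) P,
    p ^ m • (Q.1 - Q'.1) ≠ 0 ∧ (g.1 Q).1 - (g.1 Q').1 = Q.1 - Q'.1}

/-- **The two proportions on the fibre.** -/
theorem card_fixSet_exactSet (hp2 : p ≠ 2) (m : ℕ)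
    (hfull : ∀ φ : Submodule.torsionBy ℤ ((ratCurve W).toAffine⁄Qb).Point ((p : ℤ) ^ (m + 1)) ≃+
        Submodule.torsionBy ℤ ((ratCurve W).toAffine⁄Qb).Point ((p : ℤ) ^ (m + 1)),
      ∃ σ : GQ, ∀ T, Affine.Point.map σ.toAlgHom T.1 = (φ T).1)
    {P : (ratCurve W).toAffine.Point} (hP : ∀ R, p • R ≠ P) :
    (Nat.card (fixSet p m P) : ℝ) / Nat.card (fibHom W (p ^ (m + 1)) P).range =
        levelDensity p m ∧
      (Nat.card (exactSet p m P) : ℝ) / Nat.card (fibHom W (p ^ (m + 1)) P).range ≤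
        1 / ((p : ℝ) ^ m * (p - 1)) := by
  set n := m + 1 with hn
  set f := fibHom W (p ^ n) P with hf
  obtain ⟨e⟩ := FA.Bashmakov.exists_torsion_coord (ratCurve W) p n
  obtain ⟨Q₀, hQ₀⟩ := exists_div W (pow_ne_zero n hp.out.ne_zero) (up W P)
  have hT : ∀ {y : ((ratCurve W).toAffine⁄Qb).Point},
      y ∈ Submodule.torsionBy ℤ ((ratCurve W).toAffine⁄Qb).Point ((p : ℤ) ^ n) ↔ p ^ n • y = 0 :=
    fun {y} => by rw [Submodule.mem_torsionBy_iff, ← Nat.cast_pow, natCast_zsmul]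
  have hsub : ∀ Q : Fib W (p ^ n) P,
      Q.1 - Q₀ ∈ Submodule.torsionBy ℤ ((ratCurve W).toAffine⁄Qb).Point ((p : ℤ) ^ n) := fun Q => by
    rw [hT, nsmul_sub, Q.2, hQ₀, sub_self]
  have hadd : ∀ v, p ^ n • (Q₀ + (e v).1) = up W P := fun v => by
    rw [nsmul_add, hQ₀, hT.mp (e v).2, add_zero]
  let c : Fib W (p ^ n) P ≃ (Fin 2 → R[n]) :=
    { toFun := fun Q => e.symm ⟨Q.1 - Q₀, hsub Q⟩
      invFun := fun v => ⟨Q₀ + (e v).1, hadd v⟩
      left_inv := fun Q => Subtype.ext (by simp)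
      right_inv := fun v => by simp }
  have hQb : p ^ n • Q₀ =
      Affine.Point.map (W' := (ratCurve W).toAffine) (Algebra.ofId ℚ Qb) P := by
    rw [hQ₀]; cases P <;> rfl
  -- the element of an automorphism and a translation
  have hex : ∀ a : GL (Fin 2) R[n] × (Fin 2 → R[n]),
      ∃ g : f.range, ∀ Q, c (g.1 Q) = a.1.val *ᵥ c Q + a.2 := by
    rintro ⟨M, t⟩
    let u : (Fin 2 → R[n]) ≃+ (Fin 2 → R[n]) :=
      { toFun := fun v => M.val *ᵥ v
        invFun := fun v => (M⁻¹).val *ᵥ v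
        left_inv := fun v => by
          show (M⁻¹).val *ᵥ (M.val *ᵥ v) = v
          rw [mulVec_mulVec, ← Units.val_mul, inv_mul_cancel, Units.val_one, one_mulVec]
        right_inv := fun v => by
          show M.val *ᵥ ((M⁻¹).val *ᵥ v) = v
          rw [mulVec_mulVec, ← Units.val_mul, mul_inv_cancel, Units.val_one, one_mulVec]
        map_add' := fun v w => mulVec_add _ v w }
    obtain ⟨σ, hσ, hσQ⟩ := FA.Summary.bashmakov (ratCurve W) hp.out hp2 n hfull P hP hQb
      ((e.symm.trans u).trans e) (e t)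
    refine ⟨⟨f σ, σ, rfl⟩, fun Q => e.injective ?_⟩
    show e (e.symm _) = e (u (c Q) + t)
    rw [AddEquiv.apply_symm_apply]
    refine Subtype.ext ?_
    show σ • Q.1 - Q₀ = (e (u (c Q) + t)).1
    have h1 : σ • (Q.1 - Q₀) = (((e.symm.trans u).trans e) ⟨Q.1 - Q₀, hsub Q⟩).1 :=
      hσ ⟨Q.1 - Q₀, hsub Q⟩
    have h2 : σ • Q.1 = σ • (Q.1 - Q₀) + σ • Q₀ := by
      rw [← FA.Local.gal_smul_add (ratCurve W) σ, sub_add_cancel]
    rw [map_add, Submodule.coe_add, h2, h1, show σ • Q₀ = Q₀ + (e t).1 from hσQ]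
    show (e (u (c Q))).1 + (Q₀ + (e t).1) - Q₀ = _
    abel
  choose Ψ hΨ using hex
  have hinj : Function.Injective Ψ := by
    intro a b hab
    have h : ∀ v, a.1.val *ᵥ v + a.2 = b.1.val *ᵥ v + b.2 := fun v => by
      have := hΨ a (c.symm v)
      rw [hab, hΨ b, Equiv.apply_symm_apply] at this
      exact this.symm
    have ht : a.2 = b.2 := by simpa using h 0
    refine Prod.ext (Units.ext (Matrix.ext fun i j => ?_)) ht
    have := congrFun (h (Pi.single j 1)) i
    simpa [mulVec_single_one, ht] using this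
  have hsurj : Function.Surjective Ψ := by
    rintro ⟨_, σ, rfl⟩
    have hstab : ∀ (τ : GQ) (T : Submodule.torsionBy ℤ ((ratCurve W).toAffine⁄Qb).Point
        ((p : ℤ) ^ n)), τ • T.1 ∈
          Submodule.torsionBy ℤ ((ratCurve W).toAffine⁄Qb).Point ((p : ℤ) ^ n) := fun τ T => by
      rw [hT, ← smul_nat, hT.mp T.2]
      exact FA.Local.gal_smul_zero (ratCurve W) τ
    let u : (Fin 2 → R[n]) →ₗ[R[n]] (Fin 2 → R[n]) := AddMonoidHom.toZModLinearMap (p ^ n)
      (AddMonoidHom.mk' (fun v => e.symm ⟨σ • (e v).1, hstab σ (e v)⟩) fun a b => by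
        rw [← map_add]
        refine congrArg e.symm (Subtype.ext ?_)
        show σ • (e (a + b)).1 = σ • (e a).1 + σ • (e b).1
        rw [map_add, Submodule.coe_add, FA.Local.gal_smul_add (ratCurve W) σ])
    set M := LinearMap.toMatrix' u
    have hM : ∀ v, M *ᵥ v = e.symm ⟨σ • (e v).1, hstab σ (e v)⟩ := fun v => by
      rw [← Matrix.toLin'_apply, Matrix.toLin'_toMatrix']; rfl
    have hu : IsUnit M := mulVec_surjective_iff_isUnit.mp fun w =>
      ⟨e.symm ⟨σ⁻¹ • (e w).1, hstab σ⁻¹ (e w)⟩, by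
        rw [hM]
        refine e.injective (Subtype.ext ?_)
        simp only [AddEquiv.apply_symm_apply]
        exact smul_inv_smul σ _⟩
    refine ⟨(hu.unit, c (f σ ⟨Q₀, hQ₀⟩)), Subtype.ext (Equiv.ext fun Q => c.injective ?_)⟩
    rw [hΨ]
    show M *ᵥ c Q + c (f σ ⟨Q₀, hQ₀⟩) = c (f σ Q)
    rw [hM]
    show e.symm _ + e.symm _ = e.symm _
    rw [← map_add]
    congr 1
    refine Subtype.ext ?_
    show σ • (e (e.symm ⟨Q.1 - Q₀, hsub Q⟩)).1 + (σ • Q₀ - Q₀) = σ • Q.1 - Q₀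
    rw [AddEquiv.apply_symm_apply, ← add_sub_assoc, ← FA.Local.gal_smul_add (ratCurve W) σ,
      sub_add_cancel]
  let E : GL (Fin 2) R[n] × (Fin 2 → R[n]) ≃ f.range := Equiv.ofBijective Ψ ⟨hinj, hsurj⟩
  have hEfix : {a : GL (Fin 2) R[n] × (Fin 2 → R[n]) // ∃ v, a.1.val *ᵥ v + a.2 = v} ≃
      fixSet p m P := E.subtypeEquiv fun a => by
    constructor
    · rintro ⟨v, hv⟩
      exact ⟨c.symm v, c.injective (by
        rw [show E a = Ψ a from rfl, hΨ, Equiv.apply_symm_apply, hv])⟩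
    · rintro ⟨Q, hQ⟩
      exact ⟨c Q, (hΨ a Q).symm.trans (congrArg c hQ)⟩
  have hdiff : ∀ Q Q' : Fib W (p ^ n) P, (e (c Q - c Q')).1 = Q.1 - Q'.1 := fun Q Q' => by
    rw [map_sub, Submodule.coe_sub]
    show (e (e.symm _)).1 - (e (e.symm _)).1 = _
    rw [AddEquiv.apply_symm_apply, AddEquiv.apply_symm_apply]
    exact sub_sub_sub_cancel_right _ _ _
  have hEex : {a : GL (Fin 2) R[n] × (Fin 2 → R[n]) //
      ∃ w, p ^ m • w ≠ 0 ∧ a.1.val *ᵥ w = w} ≃ exactSet p m P := E.subtypeEquiv fun a => by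
    constructor
    · rintro ⟨w, hw, hfix⟩
      refine ⟨c.symm w, c.symm 0, fun h => hw ?_, ?_⟩
      · rw [← hdiff, Equiv.apply_symm_apply, Equiv.apply_symm_apply, sub_zero,
          ← AddSubmonoidClass.coe_nsmul, ← map_nsmul] at h
        exact e.injective ((Subtype.ext h).trans (map_zero e).symm)
      · rw [← hdiff, ← hdiff, show E a = Ψ a from rfl, hΨ, hΨ, Equiv.apply_symm_apply,
          Equiv.apply_symm_apply, mulVec_zero, zero_add, add_sub_cancel_right, hfix, sub_zero]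
    · rintro ⟨Q, Q', hne, heq⟩
      refine ⟨c Q - c Q', fun h => hne ?_, ?_⟩
      · rw [← hdiff, ← AddSubmonoidClass.coe_nsmul, ← map_nsmul, h, map_zero,
          ZeroMemClass.coe_zero]
      · rw [← hdiff, ← hdiff, show E a = Ψ a from rfl, hΨ, hΨ, add_sub_add_right_eq_sub] at heq
        rw [mulVec_sub]
        exact e.injective (Subtype.ext heq)
  have hcard : (Nat.card f.range : ℝ) =
      Nat.card (GL (Fin 2) R[n]) * ((p : ℝ) ^ n) ^ 2 := by
    rw [← Nat.card_congr E, Nat.card_prod, Nat.card_fun, Nat.card_fin, Nat.card_zmod,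
      Nat.cast_mul, Nat.cast_pow, Nat.cast_pow]
  refine ⟨?_, ?_⟩
  · have hS : {a : GL (Fin 2) R[n] × (Fin 2 → R[n]) // ∃ v, a.1.val *ᵥ v + a.2 = v} ≃
        Σ g : GL (Fin 2) R[n], Set.range fun v => (g.val - 1) *ᵥ v :=
      { toFun := fun a => ⟨a.1.1, a.1.2, (exists_fixed_iff_mem_range _ _).mp a.2⟩
        invFun := fun s => ⟨(s.1, s.2.1), (exists_fixed_iff_mem_range _ _).mpr s.2.2⟩
        left_inv := fun _ => rfl
        right_inv := fun _ => rfl }
    rw [← Nat.card_congr hEfix, Nat.card_congr hS, hcard, Nat.card_sigma, Nat.cast_sum,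
      levelDensity]
    rfl
  · have hprod : {a : GL (Fin 2) R[n] × (Fin 2 → R[n]) //
        ∃ w, p ^ m • w ≠ 0 ∧ a.1.val *ᵥ w = w} ≃
        {g : GL (Fin 2) R[n] // ∃ w, p ^ m • w ≠ 0 ∧ g.val *ᵥ w = w} × (Fin 2 → R[n]) :=
      { toFun := fun a => (⟨a.1.1, a.2⟩, a.1.2)
        invFun := fun b => ⟨(b.1.1, b.2), b.1.2⟩
        left_inv := fun _ => rfl
        right_inv := fun _ => rfl }
    rw [← Nat.card_congr hEex, Nat.card_congr hprod, hcard, Nat.card_prod, Nat.card_fun,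
      Nat.card_fin, Nat.card_zmod, Nat.cast_mul, Nat.cast_pow, Nat.cast_pow,
      mul_div_mul_right _ _ (pow_ne_zero _ (pow_ne_zero _ (Nat.cast_ne_zero.mpr hp.out.ne_zero)))]
    have hle : ((Nat.card {g : GL (Fin 2) R[n] //
        ∃ w, p ^ m • w ≠ 0 ∧ g.val *ᵥ w = w} : ℕ) : ℝ) * ((p : ℝ) ^ m * (p - 1)) ≤
          Nat.card (GL (Fin 2) R[n]) := by
      have h := (Nat.cast_le (α := ℝ)).mpr (card_fix_exact_le (p := p) m)
      push_cast [Nat.cast_sub hp.out.one_le] at h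
      exact h
    have h1 : (1 : ℝ) < p := by exact_mod_cast hp.out.one_lt
    have hpos : 0 < (p : ℝ) ^ m * (p - 1) := mul_pos (by positivity) (by linarith)
    rw [div_le_div_iff₀ (Nat.cast_pos.mpr Nat.card_pos) hpos, one_mul]
    exact hle

end FA.OrderDensity

end
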