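import Fermat.Agent.OrderDensity.Count
import Mathlib.Analysis.SpecificLimits.Basic

/-!
# The limit over the levels and the elements fixing a point of exact order `pⁿ`

The proportion of the affine maps of `(ℤ/pⁿ)²` with a fixed point tends to
`(p⁴-2p³+2p-1 + 1/(p²+p+1)) / ((p²-1)(p²-p))`, and at most one in `φ(pⁿ)` linear maps fixes a
point of exact order `pⁿ`.
-/

set_option autoImplicit false
set_option linter.unusedSectionVars false

noncomputable section

open Matrix Finset Filter Topology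
open scoped Classical

namespace FA.OrderDensity

variable {p : ℕ} [hp : Fact p.Prime]

local notation "R[" m "]" => ZMod (p ^ m)

theorem succ_mul_idealTotal (m : ℕ) :
    ((p : ℝ) + 1) * idealTotal p m = (p : ℝ) ^ (2 * m + 1) + 1 := by
  induction m with
  | zero => rw [idealTotal_zero]; simp
  | succ m ih =>
    have h : p ^ m ≤ p ^ (m + 1) := Nat.pow_le_pow_right hp.out.pos m.le_succ
    rw [idealTotal_succ]
    push_cast [Nat.cast_sub h]
    linear_combination ih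

theorem closed_imageTotal (m : ℕ) :
    ((p : ℝ) ^ 2 + p + 1) * ((p : ℝ) ^ 2 + 1) * imageTotal p m =
      (p : ℝ) ^ 2 * ((p : ℝ) ^ 2 + 1) * (p : ℝ) ^ (6 * m) +
        (p : ℝ) * ((p : ℝ) ^ 2 + p + 1) * (p : ℝ) ^ (4 * m) + 1 := by
  induction m with
  | zero => rw [imageTotal_zero]; simp; ring
  | succ m ih =>
    rw [imageTotal_succ]
    linear_combination ih + ((p : ℝ) ^ 2 + p + 1) * ((p : ℝ) ^ 2 + 1) * ((p : ℝ) ^ 2 - 1) *
      ((p : ℝ) ^ (3 * m) * (p : ℝ) ^ (m + 1)) * succ_mul_idealTotal (p := p) m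

/-- The proportion of affine maps of `(ℤ/pᵐ⁺¹)²` with a fixed point. -/
def levelDensity (p : ℕ) [Fact p.Prime] (m : ℕ) : ℝ :=
  (∑ g : GL (Fin 2) (ZMod (p ^ (m + 1))), (imageSize (g.val - 1) : ℝ)) /
    (Nat.card (GL (Fin 2) (ZMod (p ^ (m + 1)))) * ((p : ℝ) ^ (m + 1)) ^ 2)

/-- The density of Jones and Rouse. -/
def orderDensity (p : ℕ) : ℝ :=
  ((p : ℝ) ^ 4 - 2 * (p : ℝ) ^ 3 + 2 * p - 1 + 1 / ((p : ℝ) ^ 2 + p + 1)) /
    (((p : ℝ) ^ 2 - 1) * ((p : ℝ) ^ 2 - p))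

theorem tendsto_levelDensity : Tendsto (levelDensity p) atTop (𝓝 (orderDensity p)) := by
  have h2 : (2 : ℝ) ≤ p := by exact_mod_cast hp.out.two_le
  set x : ℝ := (p : ℝ) with hx
  set D := (x ^ 2 - 1) * (x ^ 2 - x) with hD
  have hD0 : D ≠ 0 := mul_ne_zero (by nlinarith) (by nlinarith)
  have hx0 : x ≠ 0 := by linarith
  set a := ((x ^ 2 - x - 1) / x + 1 / ((x ^ 2 + 1) * x)) / D with ha
  set b := 1 / ((x ^ 2 + x + 1) * (x ^ 2 + 1) * x ^ 2) / D with hb
  have h1 : Tendsto (fun m : ℕ => ((x ^ 2)⁻¹) ^ m) atTop (𝓝 0) :=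
    tendsto_pow_atTop_nhds_zero_of_lt_one (by positivity)
      (inv_lt_one_of_one_lt₀ (one_lt_pow₀ (by linarith) two_ne_zero))
  have h6 : Tendsto (fun m : ℕ => ((x ^ 6)⁻¹) ^ m) atTop (𝓝 0) :=
    tendsto_pow_atTop_nhds_zero_of_lt_one (by positivity)
      (inv_lt_one_of_one_lt₀ (one_lt_pow₀ (by linarith) (by norm_num)))
  have h := ((h1.const_mul a).add (h6.const_mul b)).const_add (orderDensity p)
  simp only [mul_zero, add_zero] at h
  refine h.congr fun m => ?_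
  have e1 := succ_mul_idealTotal (p := p) m
  have e2 := closed_imageTotal (p := p) m
  rw [← hx] at e1 e2
  have hp1 : x + 1 ≠ 0 := by linarith
  have hT : (idealTotal p m : ℝ) = (x ^ (2 * m + 1) + 1) / (x + 1) := by
    rw [eq_div_iff hp1, mul_comm, e1]
  have hq : (x ^ 2 + x + 1) * (x ^ 2 + 1) ≠ 0 := mul_ne_zero (by nlinarith) (by nlinarith)
  have hV : (imageTotal p m : ℝ) = (x ^ 2 * (x ^ 2 + 1) * x ^ (6 * m) +
      x * (x ^ 2 + x + 1) * x ^ (4 * m) + 1) / ((x ^ 2 + x + 1) * (x ^ 2 + 1)) := by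
    rw [eq_div_iff hq, mul_comm, e2]
  rw [levelDensity, sum_gl2_imageSize, card_gl2_succ, hT, hV, orderDensity, ← hx, ← hD, ha, hb]
  have hz : x ^ m ≠ 0 := pow_ne_zero _ hx0
  rw [inv_pow, inv_pow, ← pow_mul, ← pow_mul, pow_succ x m, pow_succ x (2 * m),
    show x ^ (2 * m) = (x ^ m) ^ 2 by rw [mul_comm, pow_mul],
    show x ^ (3 * m) = (x ^ m) ^ 3 by rw [mul_comm, pow_mul],
    show x ^ (4 * m) = (x ^ m) ^ 4 by rw [mul_comm, pow_mul],
    show x ^ (6 * m) = (x ^ m) ^ 6 by rw [mul_comm, pow_mul]]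
  have hq1 : x ^ 2 + x + 1 ≠ 0 := by nlinarith
  have hq2 : x ^ 2 + 1 ≠ 0 := by nlinarith
  generalize x ^ m = z at hz ⊢
  field_simp
  ring

/-- A primitive vector is the first column of an invertible matrix. -/
theorem exists_gl2_col {m : ℕ} (v : Fin 2 → R[m + 1]) (hv : p ^ m • v ≠ 0) :
    ∃ h : GL (Fin 2) R[m + 1], h.val *ᵥ ![1, 0] = v := by
  have hu : IsUnit (v 0) ∨ IsUnit (v 1) := by
    by_contra hc
    push Not at hc
    refine hv (funext fun i => ?_)
    obtain ⟨b, hb⟩ := (FA.Bashmakov.isUnit_or_eq_prime_mul hp.out (v i)).resolve_left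
      (by fin_cases i; exacts [hc.1, hc.2])
    rw [Pi.smul_apply, hb, nsmul_eq_mul, ← mul_assoc, Nat.cast_pow, ← pow_succ, ← Nat.cast_pow,
      ZMod.natCast_self, zero_mul, Pi.zero_apply]
  rcases hu with hu | hu
  · have hdet : IsUnit (!![v 0, 0; v 1, 1] : Matrix (Fin 2) (Fin 2) R[m + 1]) := by
      rw [Matrix.isUnit_iff_isUnit_det, det_fin_two_of]; simpa using hu
    exact ⟨hdet.unit, by funext i; fin_cases i <;> simp [mulVec, dotProduct, Fin.sum_univ_two]⟩
  · have hdet : IsUnit (!![v 0, 1; v 1, 0] : Matrix (Fin 2) (Fin 2) R[m + 1]) := by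
      rw [Matrix.isUnit_iff_isUnit_det, det_fin_two_of]; simpa using hu
    exact ⟨hdet.unit, by funext i; fin_cases i <;> simp [mulVec, dotProduct, Fin.sum_univ_two]⟩

/-- **Few linear maps fix a point of exact order `pᵐ⁺¹`**: at most one in `φ(pᵐ⁺¹)`. -/
theorem card_fix_exact_le (m : ℕ) :
    Nat.card {g : GL (Fin 2) R[m + 1] // ∃ w, p ^ m • w ≠ 0 ∧ g.val *ᵥ w = w} *
      (p ^ m * (p - 1)) ≤ Nat.card (GL (Fin 2) R[m + 1]) := by
  set B := {g : GL (Fin 2) R[m + 1] // ∃ w, p ^ m • w ≠ 0 ∧ g.val *ᵥ w = w}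
  choose h hh using fun v : {v : Fin 2 → R[m + 1] // p ^ m • v ≠ 0} => exists_gl2_col v.1 v.2
  choose w hw hfix using fun g : B => g.2
  let F : B × (R[m + 1])ˣ → GL (Fin 2) R[m + 1] := fun a => a.1.1 * h ⟨(a.2 : R[m + 1]) • w a.1,
    fun e => hw a.1 (by
      have := congrArg (fun z => (↑a.2⁻¹ : R[m + 1]) • z) e
      simpa [smul_smul, smul_comm (p ^ m)] using this)⟩
  have hF : ∀ a, (F a).val *ᵥ ![1, 0] = (a.2 : R[m + 1]) • w a.1 := fun a => by
    rw [Units.val_mul, ← mulVec_mulVec, hh, mulVec_smul, hfix]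
  have hinj : Function.Injective F := by
    rintro ⟨g, u⟩ ⟨g', u'⟩ e
    have e1 : (u : R[m + 1]) • w g = (u' : R[m + 1]) • w g' := by
      rw [← hF ⟨g, u⟩, e, hF]
    have e2 : g.1 = g'.1 := by
      simp only [F, e1] at e
      exact mul_right_cancel e
    obtain rfl : g = g' := Subtype.ext e2
    obtain ⟨i, hi⟩ : ∃ i, IsUnit (w g i) := by
      by_contra hc
      push Not at hc
      refine hw g (funext fun i => ?_)
      obtain ⟨b, hb⟩ :=
        (FA.Bashmakov.isUnit_or_eq_prime_mul hp.out (w g i)).resolve_left (hc i)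
      rw [Pi.smul_apply, hb, nsmul_eq_mul, ← mul_assoc, Nat.cast_pow, ← pow_succ,
        ← Nat.cast_pow, ZMod.natCast_self, zero_mul, Pi.zero_apply]
    exact Prod.ext rfl (Units.ext (hi.mul_right_cancel (congrFun e1 i)))
  have hu : Nat.card (R[m + 1])ˣ = p ^ m * (p - 1) := by
    rw [Nat.card_eq_fintype_card, ZMod.card_units_eq_totient, Nat.totient_prime_pow_succ hp.out]
  rw [← hu, ← Nat.card_prod]
  exact Nat.card_le_card_of_injective F hinj

end FA.OrderDensity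

end
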