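import Fermat.Agent.OrderDensity.Fibre
import Fermat.Agent.OrderDensity.Lift
import Fermat.Agent.BashmakovDensity.Fibre
import Fermat.Agent.Root.SummaryChebotarev

/-!
# The primes at which the order of a point is prime to `p`

At each level the primes at which the order of `P` is prime to `p` contain those whose Frobenius
fixes a `pᵐ⁺¹`-th part and no point of exact order `pᵐ⁺¹`, and are contained in those whose
Frobenius fixes a `pᵐ⁺¹`-th part; both densities tend to the same limit.
-/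

set_option autoImplicit false
set_option linter.style.haveILetI false
set_option linter.unusedSectionVars false

noncomputable section

open WeierstrassCurve NumberField IsDedekindDomain FA.Frob FA.PointDiv Filter Topology
open scoped WeierstrassCurve.Affine Classical

local notation "Qb" => AlgebraicClosure ℚ
local notation "GQ" => AlgebraicClosure ℚ ≃ₐ[ℚ] AlgebraicClosure ℚ

namespace FA.OrderDensity

/-- **Squeezing a density** between sets whose densities have one limit, up to finite sets. -/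
theorem hasDirichletDensity_of_squeeze {S : Set (HeightOneSpectrum (𝓞 ℚ))}
    {L U : ℕ → Set (HeightOneSpectrum (𝓞 ℚ))} {l u : ℕ → ℝ} {δ : ℝ}
    (hL : ∀ m, (L m).HasDirichletDensity (l m)) (hU : ∀ m, (U m).HasDirichletDensity (u m))
    (hLS : ∀ m, (L m \ S).Finite) (hSU : ∀ m, (S \ U m).Finite)
    (hl : Tendsto l atTop (𝓝 δ)) (hu : Tendsto u atTop (𝓝 δ)) : S.HasDirichletDensity δ := by
  refine tendsto_order.mpr ⟨fun b hb => ?_, fun b hb => ?_⟩
  · obtain ⟨m, hm⟩ := (hl.eventually (eventually_gt_nhds hb)).exists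
    have h := FA.Chebotarev.hasDirichletDensity_congr (S := L m ∩ S) (T := L m)
      (Set.finite_empty.subset fun v hv => hv.2 hv.1.1)
      ((hLS m).subset fun v hv => ⟨hv.1, fun hS => hv.2 ⟨hv.1, hS⟩⟩) (hL m)
    have e : (L m ∩ S) \ S = ∅ :=
      Set.eq_empty_iff_forall_notMem.mpr fun v hv => hv.2 hv.1.2
    filter_upwards [h.eventually (eventually_gt_nhds hm), FA.Chebotarev.Ioc_one_two_mem]
      with s hs h1
    refine hs.trans_le (div_le_div_of_nonneg_right ?_ (Set.primeIdealZetaSum_nonneg _ _))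
    refine (FA.Chebotarev.primeIdealZetaSum_le_add
      (by rw [e]; exact Set.finite_empty) h1.1).trans_eq ?_
    rw [e, Set.ncard_empty, Nat.cast_zero, add_zero]
  · obtain ⟨m, hm⟩ := (hu.eventually (eventually_lt_nhds hb)).exists
    have h := FA.Chebotarev.hasDirichletDensity_congr (S := U m ∪ S) (T := U m)
      ((hSU m).subset fun v hv => ⟨hv.1.resolve_left hv.2, hv.2⟩)
      (Set.finite_empty.subset fun v hv => hv.2 (Or.inl hv.1)) (hU m)
    have e : S \ (U m ∪ S) = ∅ :=
      Set.eq_empty_iff_forall_notMem.mpr fun v hv => hv.2 (Or.inr hv.1)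
    filter_upwards [h.eventually (eventually_lt_nhds hm), FA.Chebotarev.Ioc_one_two_mem]
      with s hs h1
    refine lt_of_le_of_lt (div_le_div_of_nonneg_right ?_ (Set.primeIdealZetaSum_nonneg _ _)) hs
    refine (FA.Chebotarev.primeIdealZetaSum_le_add
      (by rw [e]; exact Set.finite_empty) h1.1).trans_eq ?_
    rw [e, Set.ncard_empty, Nat.cast_zero, add_zero]

variable {W : WeierstrassCurve ℤ} [(ratCurve W).IsElliptic] {p : ℕ} [hp : Fact p.Prime]

/-- **The density of the primes at which the order of `P` is prime to `p`.** -/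
theorem hasDirichletDensity_not_dvd_addOrderOf (hp2 : p ≠ 2)
    (hfull : ∀ (n : ℕ)
        (φ : Submodule.torsionBy ℤ ((ratCurve W).toAffine⁄Qb).Point ((p : ℤ) ^ n) ≃+
          Submodule.torsionBy ℤ ((ratCurve W).toAffine⁄Qb).Point ((p : ℤ) ^ n)),
      ∃ σ : GQ, ∀ T, Affine.Point.map σ.toAlgHom T.1 = (φ T).1)
    {x y : ℚ} (h : (ratCurve W).toAffine.Nonsingular x y)
    (hP : ∀ R, p • R ≠ Affine.Point.some x y h) :
    {v : HeightOneSpectrum (𝓞 ℚ) | ∃ _ : Fact (Ideal.absNorm v.asIdeal).Prime,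
      ∃ h : (W.map (Int.castRingHom (ZMod (Ideal.absNorm v.asIdeal)))).toAffine.Nonsingular
        (x : ZMod (Ideal.absNorm v.asIdeal)) y,
      ¬ p ∣ addOrderOf (Affine.Point.some (x : ZMod (Ideal.absNorm v.asIdeal)) _ h)
      }.HasDirichletDensity (orderDensity p) := by
  set P := Affine.Point.some x y h with hPdef
  set N : ℕ := W.Δ.natAbs * p * x.den * y.den with hN
  have hN0 : N ≠ 0 := by
    have hΔ : W.Δ.natAbs ≠ 0 := fun e => (ratCurve W).isUnit_Δ.ne_zero (by
      simp [ratCurve, Int.natAbs_eq_zero.mp e])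
    simp [hN, hΔ, hp.out.ne_zero]
  have hgd : ∀ {q : ℕ}, ¬ q ∣ N → W.IsGoodPrimeFor q ∧ q ≠ p ∧ ¬ q ∣ x.den ∧ ¬ q ∣ y.den :=
    fun {q} hq => ⟨fun e => hq ((Int.natCast_dvd.mp e).mul_right _ |>.mul_right _ |>.mul_right _),
      fun e => hq (by rw [e]; exact ((dvd_mul_left p _).mul_right _).mul_right _),
      fun e => hq ((e.mul_left _).mul_right _), fun e => hq (e.mul_left _)⟩
  let f := fun m => fibHom W (p ^ (m + 1)) P
  haveI := fun m => finite_fib W (pow_ne_zero (m + 1) hp.out.ne_zero) P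
  let _ : ∀ m, Fintype (f m).range := fun m => Fintype.ofFinite _
  let π := fun m => (f m).rangeRestrict
  have hker : ∀ m, IsOpen ((π m).ker : Set GQ) := fun m => by
    rw [MonoidHom.ker_rangeRestrict]
    exact isOpen_ker_fibHom W (pow_ne_zero (m + 1) hp.out.ne_zero) _
  have hfix : ∀ m, ∀ g ∈ fixSet p m P, ∀ z, z * g * z⁻¹ ∈ fixSet p m P := fun m g ⟨Q, hQ⟩ z => by
    refine ⟨z.1 Q, ?_⟩
    show z.1 (g.1 (z.1.symm (z.1 Q))) = z.1 Q
    rw [Equiv.symm_apply_apply, hQ]
  have hex : ∀ m, ∀ g ∈ exactSet p m P, ∀ z, z * g * z⁻¹ ∈ exactSet p m P := by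
    rintro m g ⟨Q, Q', hne, heq⟩ ⟨_, τ, rfl⟩
    refine ⟨f m τ Q, f m τ Q', fun e => hne ?_, ?_⟩
    · have e1 : τ • (p ^ m • (Q.1 - Q'.1)) = 0 := by
        rw [smul_nat, FA.Local.gal_smul_sub (ratCurve W) τ]; exact e
      rw [← inv_smul_smul τ (p ^ m • (Q.1 - Q'.1)), e1]
      exact FA.Local.gal_smul_zero (ratCurve W) τ⁻¹
    · show (f m τ (g.1 ((f m τ).symm (f m τ Q)))).1 - (f m τ (g.1 ((f m τ).symm (f m τ Q')))).1 =
        τ • Q.1 - τ • Q'.1
      rw [Equiv.symm_apply_apply, Equiv.symm_apply_apply]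
      show τ • (g.1 Q).1 - τ • (g.1 Q').1 = _
      rw [← FA.Local.gal_smul_sub (ratCurve W) τ, ← FA.Local.gal_smul_sub (ratCurve W) τ, heq]
  let l := fun m => (Nat.card (fixSet p m P \ exactSet p m P : Set _) : ℝ) /
    Nat.card (f m).range
  have hu : ∀ m, (FA.Chebotarev.frobSet (π m) (fixSet p m P)).HasDirichletDensity
      (levelDensity p m) := fun m => by
    rw [← (card_fixSet_exactSet hp2 m (hfull _) hP).1, Nat.card_eq_fintype_card (α := (f m).range)]
    exact FA.Chebotarev.hasDirichletDensity_frobSet (π m) (MonoidHom.rangeRestrict_surjective _)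
      (hker m) (hfix m)
  have hl : ∀ m, (FA.Chebotarev.frobSet (π m)
      (fixSet p m P \ exactSet p m P)).HasDirichletDensity (l m) := fun m => by
    show Set.HasDirichletDensity _ ((_ : ℝ) / Nat.card (f m).range)
    rw [Nat.card_eq_fintype_card (α := (f m).range)]
    refine FA.Chebotarev.hasDirichletDensity_frobSet (π m) (MonoidHom.rangeRestrict_surjective _)
      (hker m) fun g hg z => ⟨hfix m g hg.1 z, fun h => hg.2 ?_⟩
    have h' := hex m _ h z⁻¹
    rwa [show z⁻¹ * (z * g * z⁻¹) * z⁻¹⁻¹ = g by group] at h'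
  have hlim : Tendsto l atTop (𝓝 (orderDensity p)) := by
    have h1 : (1 : ℝ) < p := by exact_mod_cast hp.out.one_lt
    have hb : Tendsto (fun m : ℕ => 1 / ((p : ℝ) ^ m * (p - 1))) atTop (𝓝 0) :=
      tendsto_const_nhds.div_atTop
        ((tendsto_pow_atTop_atTop_of_one_lt h1).atTop_mul_const (by linarith))
    refine tendsto_of_tendsto_of_tendsto_of_le_of_le
      (g := fun m => levelDensity p m - 1 / ((p : ℝ) ^ m * (p - 1)))
      (by simpa using (tendsto_levelDensity (p := p)).sub hb) tendsto_levelDensity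
      (fun m => ?_) fun m => ?_
    · obtain ⟨hfixc, hexc⟩ := card_fixSet_exactSet hp2 m (hfull _) hP
      have hle : (fixSet p m P).ncard ≤
          (fixSet p m P \ exactSet p m P).ncard + (exactSet p m P).ncard :=
        Set.ncard_le_ncard_sdiff_add_ncard _ _
      show levelDensity p m - _ ≤ l m
      rw [← hfixc]
      refine (sub_le_sub_left hexc _).trans ?_
      rw [← sub_div, Nat.card_coe_set_eq, Nat.card_coe_set_eq]
      refine div_le_div_of_nonneg_right ?_ (Nat.cast_nonneg _)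
      rw [sub_le_iff_le_add, ← Nat.cast_add, Nat.card_coe_set_eq]
      exact_mod_cast hle
    · show l m ≤ levelDensity p m
      rw [← (card_fixSet_exactSet hp2 m (hfull _) hP).1]
      refine div_le_div_of_nonneg_right ?_ (Nat.cast_nonneg _)
      exact Nat.cast_le.mpr (Nat.card_mono (Set.toFinite _) Set.sdiff_subset)
  refine hasDirichletDensity_of_squeeze hl hu (fun m => ?_) (fun m => ?_) hlim tendsto_levelDensity
  · refine (finite_absNorm_dvd hN0).subset fun v ⟨hv, hvS⟩ => ?_
    by_contra hvN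
    haveI := Fact.mk (FA.Chebotarev.absNorm_prime v)
    set q := Ideal.absNorm v.asIdeal
    obtain ⟨hgood, hqp, hx, hy⟩ := hgd hvN
    haveI := reductionMod_isElliptic W hgood
    obtain ⟨A, hA⟩ := FA.Deform.exists_liesOverPrime (FA.Chebotarev.absNorm_prime v)
    obtain ⟨σ, hσ⟩ := FA.Deform.exists_isFrobeniusAt (FA.Chebotarev.absNorm_prime v) hA
    obtain ⟨⟨Q, hQ⟩, hnex⟩ := hv A hA σ hσ
    obtain ⟨_, h', R, hR⟩ :=
      FA.BashmakovDensity.locDiv_of_exists_fixed h hgood hx hy hA hσ hQ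
    refine hvS ⟨inferInstance, h', ?_⟩
    rintro ⟨a, ha⟩
    have hpos : 0 < addOrderOf (Affine.Point.some (x : ZMod q) (y : ZMod q) h') :=
      (isOfFinAddOrder_of_finite _).addOrderOf_pos
    have hY : p ^ m • (p • a • R) = a • Affine.Point.some (x : ZMod q) (y : ZMod q) h' := by
      rw [← hR, ← mul_nsmul', ← pow_succ, smul_comm]
    obtain ⟨T, hT, hσT, hT'⟩ := exists_fixed_torsion (k := m) hp.out hgood hqp (R := p • a • R)
      (by rw [pow_succ', mul_nsmul', hY, ← mul_nsmul', ← ha]; exact addOrderOf_nsmul_eq_zero _)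
      (by
        rw [hY]
        intro e
        have h0 : 0 < a := Nat.pos_of_ne_zero fun e' => by rw [e', mul_zero] at ha; omega
        have := Nat.le_of_dvd h0 (addOrderOf_dvd_of_nsmul_eq_zero e)
        nlinarith [hp.out.two_le])
      hA hσ
    have hQ1 : σ • Q.1 = Q.1 := congrArg Subtype.val hQ
    refine hnex ⟨⟨Q.1 + T, by rw [nsmul_add, Q.2, hT, add_zero]⟩, Q, ?_, ?_⟩
    · show p ^ m • (Q.1 + T - Q.1) ≠ 0
      rwa [add_sub_cancel_left]
    · show σ • (Q.1 + T) - σ • Q.1 = Q.1 + T - Q.1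
      rw [FA.Local.gal_smul_add (ratCurve W) σ, hσT, hQ1]
  · refine (finite_absNorm_dvd hN0).subset fun v ⟨hvS, hv⟩ => ?_
    by_contra hvN
    refine hv fun A hA σ hσ => ?_
    haveI := Fact.mk (FA.Chebotarev.absNorm_prime v)
    set q := Ideal.absNorm v.asIdeal
    obtain ⟨hgood, hqp, hx, hy⟩ := hgd hvN
    obtain ⟨_, h', hdvd⟩ := hvS
    set Pq := Affine.Point.some (x : ZMod q) (y : ZMod q) h'
    obtain ⟨s, t, hst⟩ := Int.isCoprime_iff_gcd_eq_one.mpr
      (by exact_mod_cast ((hp.out.coprime_iff_not_dvd.mpr hdvd).pow_left (m + 1)) :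
        Int.gcd ((p ^ (m + 1) : ℕ) : ℤ) (addOrderOf Pq : ℤ) = 1)
    have hord : (t * (addOrderOf Pq : ℤ)) • Pq = 0 := by
      rw [mul_smul, natCast_zsmul, addOrderOf_nsmul_eq_zero, zsmul_zero]
    have hdiv : p ^ (m + 1) • (s • Pq) = Pq :=
      calc p ^ (m + 1) • (s • Pq) = ((p ^ (m + 1) : ℕ) : ℤ) • s • Pq := (natCast_zsmul _ _).symm
        _ = (s * ((p ^ (m + 1) : ℕ) : ℤ) + t * (addOrderOf Pq : ℤ)) • Pq := by
          rw [add_zsmul, hord, add_zero, smul_smul, mul_comm]
        _ = Pq := by rw [hst, one_zsmul]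
    exact exists_fixed_of_locDiv_pow hp.out h hgood hqp hx hy ⟨inferInstance, h', s • Pq, hdiv⟩
      hA hσ

end FA.OrderDensity

end
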