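import Fermat.Agent.Root.SummarySupportProblemSharp
import Fermat.Agent.Root.SummaryIrreducibleTate

/-!
# The Kummer translations are large at every prime, for every elliptic curve over `ℚ`

A stable subgroup of the `pⁿ`-torsion with an element not killed by `pᵛ` contains the `p ^ (v - C)`-
torsion, as cyclic stable subgroups have order at most `pᶜ`. So, as the translations of a
`pᴹ`-th part of a point of infinite order by what fixes the `pᴹ`-torsion are not all killed by
`p ^ (M - B)`, they are all of the torsion but a bounded part.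
-/

set_option autoImplicit false
set_option linter.style.haveILetI false

noncomputable section

open WeierstrassCurve FA.Frob FA.EC FA.PointDiv
open scoped WeierstrassCurve.Affine Classical

local notation "Qb" => AlgebraicClosure ℚ
local notation "GQ" => AlgebraicClosure ℚ ≃ₐ[ℚ] AlgebraicClosure ℚ

namespace FA.OrderDensity

section

variable {G A : Type*} [Group G] [AddCommGroup A] (act : G →* AddMonoid.End A)

/-- A stable subgroup with an element not killed by `pᵛ` contains the `p ^ (v - C)`-torsion if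
stable cyclic subgroups have order at most `pᶜ`. -/
theorem mem_of_stable {p : ℕ} (hp : p.Prime)
    (hcard : Nat.card (Submodule.torsionBy ℤ A (p : ℤ)) = p ^ 2) {C : ℕ}
    (hC : ∀ (v : ℕ) (X : A), addOrderOf X = p ^ v →
      (∀ σ, act σ X ∈ AddSubgroup.zmultiples X) → v ≤ C)
    {S : AddSubgroup A} (hS : ∀ σ, ∀ y ∈ S, act σ y ∈ S) {n : ℕ} {X : A} (hX : X ∈ S)
    (hn : p ^ n • X = 0) {v : ℕ} (hv : p ^ v • X ≠ 0) {y : A} (hy : p ^ (v - C) • y = 0) :
    y ∈ S := by
  suffices h : ∀ j ≤ v - C, ∀ y : A, p ^ j • y = 0 → y ∈ S from h _ le_rfl y hy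
  clear hy y
  intro j
  induction j with
  | zero =>
    intro _ y hy
    rw [pow_zero, one_nsmul] at hy
    exact hy ▸ zero_mem S
  | succ j ih =>
    intro hj y hy
    obtain ⟨a, -, ha⟩ := (Nat.dvd_prime_pow hp).mp (addOrderOf_dvd_of_nsmul_eq_zero hn)
    have hva : v < a := by
      by_contra hle
      exact hv (addOrderOf_dvd_iff_nsmul_eq_zero.mp (ha ▸ pow_dvd_pow p (not_lt.mp hle)))
    have hkill : p ^ a • X = 0 := ha ▸ addOrderOf_nsmul_eq_zero X
    have hne : p ^ (a - 1) • X ≠ 0 := fun e => by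
      have h := addOrderOf_dvd_of_nsmul_eq_zero e
      rw [ha, Nat.pow_dvd_pow_iff_le_right hp.one_lt] at h
      omega
    set z₀ := p ^ (a - 1) • X with hz₀
    have hpz₀ : p • z₀ = 0 := by
      rw [hz₀, ← mul_nsmul', ← pow_succ', Nat.sub_add_cancel (by omega), hkill]
    set T := (Submodule.torsionBy ℤ A (p : ℤ)).toAddSubgroup
    have hT : ∀ {z : A}, z ∈ T ↔ p • z = 0 := fun {z} =>
      (Submodule.mem_torsionBy_iff _ _).trans (by rw [natCast_zsmul])
    let I : AddSubgroup A :=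
      { carrier := {z | ∃ s ∈ S, p ^ (j + 1) • s = 0 ∧ p ^ j • s = z}
        zero_mem' := ⟨0, zero_mem S, nsmul_zero _, nsmul_zero _⟩
        add_mem' := fun {z w} ⟨s, hs, h1, h2⟩ ⟨t, ht, h3, h4⟩ =>
          ⟨s + t, add_mem hs ht, by rw [nsmul_add, h1, h3, add_zero], by rw [nsmul_add, h2, h4]⟩
        neg_mem' := fun {z} ⟨s, hs, h1, h2⟩ =>
          ⟨-s, neg_mem hs, by rw [smul_neg, h1, neg_zero], by rw [smul_neg, h2]⟩ }
    have hIT : I ≤ T := fun z ⟨s, _, h1, h2⟩ => hT.mpr (by rw [← h2, ← mul_nsmul', ← pow_succ', h1])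
    have hz₀I : z₀ ∈ I := ⟨p ^ (a - 1 - j) • X, S.nsmul_mem hX _, by
      rw [← mul_nsmul', ← pow_add, show j + 1 + (a - 1 - j) = a by omega, hkill], by
      rw [← mul_nsmul', ← pow_add, show j + (a - 1 - j) = a - 1 by omega]⟩
    haveI : Finite T := Nat.finite_of_card_ne_zero (hcard ▸ pow_ne_zero 2 hp.ne_zero)
    by_cases hfull : I = T
    · have h1 : p ^ j • y ∈ T := hT.mpr (by rw [← mul_nsmul', ← pow_succ', hy])
      rw [← hfull] at h1
      obtain ⟨s, hs, -, hsy⟩ := h1
      have := ih (by omega) (y - s) (by rw [nsmul_sub, hsy, sub_self])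
      simpa using S.add_mem this hs
    exfalso
    haveI : Finite I := Finite.of_injective _ (AddSubgroup.inclusion_injective hIT)
    have hline : I = AddSubgroup.zmultiples z₀ := by
      symm
      refine AddSubgroup.eq_of_le_of_card_ge (AddSubgroup.zmultiples_le.mpr hz₀I) ?_
      rw [Nat.card_zmultiples, addOrderOf_eq_prime (hp := ⟨hp⟩) hpz₀ hne]
      obtain ⟨i, hi, hcI⟩ := (Nat.dvd_prime_pow hp).mp
        ((AddSubgroup.card_dvd_of_le hIT).trans (show Nat.card T ∣ p ^ 2 from dvd_of_eq hcard))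
      rw [hcI]
      rcases Nat.lt_or_eq_of_le hi with hi' | rfl
      · exact (pow_le_pow_right₀ hp.one_lt.le (show i ≤ 1 by omega)).trans (pow_one p).le
      · exact absurd (AddSubgroup.eq_of_le_of_card_ge hIT
          (le_of_eq ((show Nat.card T = p ^ 2 from hcard).trans hcI.symm))) hfull
    have hX' : addOrderOf (p ^ j • X) = p ^ (a - j) := by
      obtain ⟨b, hb⟩ : ∃ b, a - j = b + 1 := ⟨a - j - 1, by omega⟩
      rw [hb]
      refine addOrderOf_eq_prime_pow (hp := ⟨hp⟩) ?_ ?_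
      · rw [← mul_nsmul', ← pow_add, show b + j = a - 1 by omega]; exact hne
      · rw [← mul_nsmul', ← pow_add, show b + 1 + j = a by omega, hkill]
    have hcyc : ∀ i ≤ a - j, ∀ s ∈ S, p ^ i • (p ^ j • s) = 0 →
        p ^ j • s ∈ AddSubgroup.zmultiples (p ^ j • X) := by
      intro i
      induction i with
      | zero =>
        intro _ s _ h
        rw [pow_zero, one_nsmul] at h
        exact h ▸ zero_mem _
      | succ i ih' =>
        intro hi s hs h
        have hw : p ^ j • (p ^ i • s) ∈ I := ⟨p ^ i • s, S.nsmul_mem hs _, by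
          rw [pow_succ', mul_nsmul', smul_comm (p ^ j) (p ^ i), ← mul_nsmul', ← pow_succ', h], rfl⟩
        rw [hline] at hw
        obtain ⟨m, hm⟩ := AddSubgroup.mem_zmultiples_iff.mp hw
        set s₀ := p ^ (a - 1 - j - i) • X with hs₀
        have hz : p ^ i • (p ^ j • s₀) = z₀ := by
          rw [hs₀, hz₀, ← mul_nsmul', ← mul_nsmul', ← pow_add, ← pow_add]
          congr 2; omega
        have h' := ih' (by omega) (s - m • s₀) (S.sub_mem hs (S.zsmul_mem (S.nsmul_mem hX _) _)) (by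
          rw [nsmul_sub, nsmul_sub, smul_comm (p ^ i) (p ^ j) s, ← hm, smul_comm (p ^ j) m,
            smul_comm (p ^ i) m, hz, sub_self])
        have hs₀' : p ^ j • s₀ ∈ AddSubgroup.zmultiples (p ^ j • X) := by
          rw [hs₀, smul_comm]; exact AddSubgroup.nsmul_mem_zmultiples _ _
        have := add_mem h' (AddSubgroup.zsmul_mem _ hs₀' m)
        rwa [nsmul_sub, smul_comm (p ^ j) m, sub_add_cancel] at this
    have := hC _ _ hX' fun σ => by
      rw [map_nsmul]
      refine hcyc (a - j) le_rfl _ (hS σ X hX) ?_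
      rw [← mul_nsmul', ← pow_add, Nat.sub_add_cancel (by omega), ← map_nsmul, hkill, map_zero]
    omega

end

/-- In a finitely generated group a relation `a • R = b • P` with `P` of infinite order forces `a`
to divide `b` times a constant. -/
theorem exists_dvd_mul_of_eq {H : Type*} [AddCommGroup H] [AddGroup.FG H] {P : H}
    (hP : ¬ IsOfFinAddOrder P) :
    ∃ c : ℤ, c ≠ 0 ∧ ∀ (a b : ℤ) (R : H), a • R = b • P → a ∣ b * c := by
  obtain ⟨r, ⟨e⟩⟩ := FA.MordellWeil.exists_equiv_torsion_prod H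
  obtain ⟨i, hi⟩ : ∃ i, (e P).2 i ≠ 0 := by
    by_contra h
    push Not at h
    refine hP ((e.injective.isOfFinAddOrder_iff (f := e.toAddMonoidHom)).mp ?_)
    obtain ⟨m, hm, hmx⟩ := isOfFinAddOrder_iff_nsmul_eq_zero.mp (e P).1.2
    refine isOfFinAddOrder_iff_nsmul_eq_zero.mpr ⟨m, hm, ?_⟩
    show m • e P = 0
    exact Prod.ext (Subtype.ext hmx) (funext fun j => by simp [h j])
  refine ⟨(e P).2 i, hi, fun a b R h => ⟨(e R).2 i, ?_⟩⟩
  have h' := congrArg (fun z => (e z).2 i) h
  simp only [map_zsmul, Prod.smul_snd, Pi.smul_apply, smul_eq_mul] at h'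
  exact h'.symm

variable (W : WeierstrassCurve ℤ) [(ratCurve W).IsElliptic] {p : ℕ} [hp : Fact p.Prime]

/-- **The translations are not all killed by a smaller power**: some element fixing `E[pᴹ]` moves
`p ^ (M - B)` times a `pᴹ`-th part of `P`, for a constant `B`. -/
theorem exists_bound_translation_ne_of {c : ℤ} (hc : c ≠ 0) :
    ∃ B : ℕ, ∀ P : (ratCurve W).toAffine.Point,
      (∀ (n : ℕ) (b : ℤ) (R : (ratCurve W).toAffine.Point),
        ((p ^ n : ℕ) : ℤ) • R = b • P → ((p ^ n : ℕ) : ℤ) ∣ b * c) →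
      ∀ M, B ≤ M → ∀ Q, p ^ M • Q = up W P → ∃ g : GQ,
      (∀ y : ((ratCurve W).toAffine⁄Qb).Point, p ^ M • y = 0 → g • y = y) ∧
        p ^ (M - B) • (g • Q - Q) ≠ 0 := by
  obtain ⟨H, a, q, hH, hn, hτ⟩ := exists_commuting_quadratic W (p := p)
  obtain ⟨B, hB⟩ := pow_unbounded_of_one_lt (2 * (q + 1 - a) * c).natAbs hp.out.one_lt
  refine ⟨B, fun P hdvd M hM Q hQ => by_contra fun hall => ?_⟩
  push Not at hall
  set act := FA.Bashmakov.pointAct (ratCurve W)
  set R := p ^ (M - B) • Q with hR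
  have hMR : p ^ M • R = ((p ^ (M - B) : ℕ) : ℤ) • up W P := by
    rw [hR, smul_comm, hQ, natCast_zsmul]
  have hfix : ∀ σ, act σ (up W P) = up W P := fun σ => smul_up W σ P
  obtain ⟨τ, hcomm, hquad⟩ := hτ M
  obtain ⟨R', hR', hMR'⟩ := exists_fixed_multiple act (M := p ^ M) (R := R)
    (fun σ => by rw [hMR, map_zsmul, hfix])
    (fun g hg => by
      have h := hall g hg
      rw [nsmul_sub, sub_eq_zero] at h
      show act g (p ^ (M - B) • Q) = p ^ (M - B) • Q
      rw [map_nsmul]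
      exact h)
    (H := H) (τ := τ) hcomm hquad
  obtain ⟨t, ht⟩ := exists_fixed_descent act hH hR'
  obtain ⟨R₀, hR₀⟩ := exists_up_eq W ht
  have e : ((p ^ M : ℕ) : ℤ) • R₀ = (2 * (q + 1 - a) * (p ^ (M - B) : ℕ)) • P := by
    refine mapHom_injective (algebraMap ℚ Qb) rfl ?_
    show up W (((p ^ M : ℕ) : ℤ) • R₀) = up W _
    refine (map_zsmul (up W) _ R₀).trans (Eq.trans ?_ (map_zsmul (up W) _ P).symm)
    rw [natCast_zsmul, hR₀, nsmul_add, ← map_nsmul, hMR', hMR, map_zsmul, map_zsmul, hfix]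
    module
  have hd := hdvd _ _ R₀ e
  rw [show p ^ M = p ^ B * p ^ (M - B) by rw [← pow_add, Nat.add_sub_cancel' hM], Nat.cast_mul,
    mul_right_comm _ _ c, mul_dvd_mul_iff_right (by exact_mod_cast pow_ne_zero _ hp.out.ne_zero),
    Int.natCast_dvd] at hd
  exact absurd (Nat.le_of_dvd (Int.natAbs_pos.mpr (mul_ne_zero (mul_ne_zero two_ne_zero hn) hc)) hd)
    (by omega)

/-- The same for one point of infinite order. -/
theorem exists_bound_translation_ne {P : (ratCurve W).toAffine.Point}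
    (hP : ¬ IsOfFinAddOrder P) :
    ∃ B : ℕ, ∀ M, B ≤ M → ∀ Q, p ^ M • Q = up W P → ∃ g : GQ,
      (∀ y : ((ratCurve W).toAffine⁄Qb).Point, p ^ M • y = 0 → g • y = y) ∧
        p ^ (M - B) • (g • Q - Q) ≠ 0 := by
  haveI := FA.MordellWeil.mordell (ratCurve W)
  obtain ⟨c, hc, hdvd⟩ := exists_dvd_mul_of_eq hP
  obtain ⟨B, hB⟩ := exists_bound_translation_ne_of W (p := p) hc
  exact ⟨B, hB P fun n b R e => hdvd _ b R e⟩

/-- **Large Kummer images at every prime**: for a constant `B` every translation of a `pᴹ`-th part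
of `P` by a point killed by `p ^ (M - B)` is induced by an element fixing `E[pᴹ]`. -/
theorem exists_bound_translations {P : (ratCurve W).toAffine.Point}
    (hP : ¬ IsOfFinAddOrder P) :
    ∃ B : ℕ, ∀ M Q, p ^ M • Q = up W P → ∀ t, p ^ (M - B) • t = 0 → ∃ g : GQ,
      (∀ y : ((ratCurve W).toAffine⁄Qb).Point, p ^ M • y = 0 → g • y = y) ∧
        g • Q = Q + t := by
  obtain ⟨B₀, hB₀⟩ := exists_bound_translation_ne W (p := p) hP
  obtain ⟨C, hC⟩ := FA.Summary.exists_bound_stable_primePow (ratCurve W) hp.out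
    (inst := instDecEqAlgebraicClosureRat)
  refine ⟨B₀ + C, fun M Q hQ t ht => ?_⟩
  rcases Nat.lt_or_ge M B₀ with hM | hM
  · rw [show M - (B₀ + C) = 0 by omega, pow_zero, one_nsmul] at ht
    exact ⟨1, fun y _ => one_smul _ _, by rw [one_smul, ht, add_zero]⟩
  obtain ⟨g, hg, hX⟩ := hB₀ M hM Q hQ
  set act := FA.Bashmakov.pointAct (ratCurve W)
  have hd : ∀ σ : GQ, p ^ M • (σ • Q - Q) = 0 := fun σ => by
    rw [nsmul_sub, ← smul_nat, hQ, smul_up, sub_self]
  have hst : ∀ (σ : GQ) {y : ((ratCurve W).toAffine⁄Qb).Point}, p ^ M • y = 0 →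
      p ^ M • act σ y = 0 := fun σ y hy => by rw [← map_nsmul, hy, map_zero]
  let S : AddSubgroup ((ratCurve W).toAffine⁄Qb).Point :=
    { carrier := {d | ∃ g : GQ, (∀ y, p ^ M • y = 0 → act g y = y) ∧ act g Q = Q + d}
      zero_mem' := ⟨1, fun y _ => by rw [map_one]; rfl, by rw [map_one, add_zero]; rfl⟩
      add_mem' := fun {v w} ⟨g, hg, hgQ⟩ ⟨h, hh, hhQ⟩ =>
        ⟨g * h, fun y hy => by rw [FA.Bashmakov.act_mul, hh y hy, hg y hy], by
          have hw : p ^ M • w = 0 := by
            have := hd h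
            rwa [show h • Q = Q + w from hhQ, add_sub_cancel_left] at this
          rw [FA.Bashmakov.act_mul, hhQ, map_add, hgQ, hg w hw, add_assoc]⟩
      neg_mem' := fun {v} ⟨g, hg, hgQ⟩ => by
        have hg' : ∀ y, p ^ M • y = 0 → act g⁻¹ y = y := fun y hy => by
          conv_lhs => rw [← hg y hy]
          rw [FA.Bashmakov.act_inv_act]
        have hv : p ^ M • v = 0 := by
          have := hd g
          rwa [show g • Q = Q + v from hgQ, add_sub_cancel_left] at this
        refine ⟨g⁻¹, hg', ?_⟩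
        have e := congrArg (act g⁻¹) hgQ
        rw [FA.Bashmakov.act_inv_act, map_add, hg' v hv] at e
        rw [← sub_eq_add_neg, eq_sub_iff_add_eq]
        exact e.symm }
  have hS : ∀ σ, ∀ v ∈ S, act σ v ∈ S := by
    rintro σ v ⟨g, hg, hgQ⟩
    have hinv : ∀ y, act σ (act σ⁻¹ y) = y := fun y => by
      simpa using FA.Bashmakov.act_inv_act act σ⁻¹ y
    refine ⟨σ * g * σ⁻¹, fun y hy => ?_, ?_⟩
    · rw [FA.Bashmakov.act_mul, FA.Bashmakov.act_mul, hg _ (hst σ⁻¹ hy), hinv]
    · rw [FA.Bashmakov.act_mul, FA.Bashmakov.act_mul,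
        show act σ⁻¹ Q = Q + (act σ⁻¹ Q - Q) by rw [add_sub_cancel], map_add, hgQ,
        hg (act σ⁻¹ Q - Q) (hd σ⁻¹), add_right_comm, add_sub_cancel, map_add, hinv]
  obtain ⟨g', hg', hgt⟩ := mem_of_stable act hp.out
    (natCard_torsion (ratCurve W) hp.out.ne_zero) hC hS
    (X := g • Q - Q) ⟨g, hg, by rw [add_sub_cancel]; rfl⟩ (hd g) hX
    (show p ^ (M - B₀ - C) • t = 0 by rwa [Nat.sub_sub])
  exact ⟨g', hg', hgt⟩

end FA.OrderDensity

end
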