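import Fermat.Agent.OrderDensity.Prescribed
import Fermat.Agent.Bashmakov.Irreducible
import Fermat.Agent.Root.SummaryBashmakov
import Fermat.Agent.RT.Tate.Good

/-!
# Every prime power divides the order of a point modulo infinitely many primes

Let `τ` commute on the torsion with a subgroup of index at most two and satisfy a quadratic equation
`X² - a X + q` there with `n = q + 1 - a ≠ 0` (one `τ` for each level). If all elements fixing the `pᴺ`-torsion fixed
`p ^ k` times the `pᴺ`-th parts of a point `P`, then `2 n p ^ k P` would be `pᴺ` times a rational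
point; so for large `N` one does not, and at the primes with that Frobenius `p ^ (k + 1)` divides
the order of `P`.
-/

set_option autoImplicit false
set_option linter.style.haveILetI false

noncomputable section

open WeierstrassCurve NumberField IsDedekindDomain FA.Frob FA.EC FA.PointDiv
open scoped WeierstrassCurve.Affine Classical

local notation "Qb" => AlgebraicClosure ℚ
local notation "GQ" => AlgebraicClosure ℚ ≃ₐ[ℚ] AlgebraicClosure ℚ

namespace FA.OrderDensity

section

open FA.Bashmakov (act_mul act_inv_act)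

variable {G A : Type*} [Group G] [AddCommGroup A] (act : G →* AddMonoid.End A)

/-- A point fixed by what fixes the `M`-torsion has a multiple by `q + 1 - a` which, changed by
`M`-torsion, is fixed by what commutes with `τ`. -/
theorem exists_fixed_multiple {M : ℕ} {R : A} (hR : ∀ σ, act σ (M • R) = M • R)
    (hker : ∀ g, (∀ y, M • y = 0 → act g y = y) → act g R = R) {H : Subgroup G} {τ : G}
    (hcomm : ∀ σ ∈ H, ∀ y, M • y = 0 → act σ (act τ y) = act τ (act σ y)) {a q : ℤ}
    (hquad : ∀ y, M • y = 0 → act τ (act τ y) - a • act τ y + q • y = 0) :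
    ∃ R', (∀ σ ∈ H, act σ R' = R') ∧ M • R' = (q + 1 - a) • (M • R) := by
  have he : ∀ σ, M • (act σ R - R) = 0 := fun σ => by
    rw [nsmul_sub, ← map_nsmul, hR, sub_self]
  refine ⟨(q + 1 - a) • R - ((a - 1) • (act τ R - R) - act τ (act τ R - R)), fun σ hσ => ?_, ?_⟩
  swap
  · rw [nsmul_sub, nsmul_sub, smul_comm, smul_comm M (a - 1), he, zsmul_zero, ← map_nsmul, he,
      map_zero, sub_zero, sub_zero]
  set e := act σ R - R with he₁
  set d := act τ R - R with hd₁
  have hk : ∀ y, M • y = 0 → act ((τ * σ)⁻¹ * (σ * τ)) y = y := fun y hy => by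
    rw [act_mul, show act (σ * τ) y = act (τ * σ) y by rw [act_mul, act_mul, hcomm σ hσ y hy],
      act_inv_act]
  have h1 : act σ (act τ R) = act τ (act σ R) := by
    have h := congrArg (act (τ * σ)) (hker _ hk)
    rwa [← act_mul, mul_inv_cancel_left, act_mul, act_mul] at h
  rw [show act τ R = R + d by rw [hd₁, add_sub_cancel],
    show act σ R = R + e by rw [he₁, add_sub_cancel], map_add, map_add,
    show act τ R = R + d by rw [hd₁, add_sub_cancel],
    show act σ R = R + e by rw [he₁, add_sub_cancel], add_assoc, add_assoc, add_right_inj] at h1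
  have hσd : act σ d = d + act τ e - e := by
    rw [eq_sub_iff_add_eq, add_comm]; exact h1
  have hq : q • e = a • act τ e - act τ (act τ e) := by
    rw [← sub_eq_zero, ← hquad e (he σ)]; abel
  have heR : act σ R = R + e := by rw [he₁, add_sub_cancel]
  have hd' : M • d = 0 := he τ
  clear_value e d
  rw [map_sub, map_sub, map_zsmul, map_zsmul, hcomm σ hσ d hd', hσd, map_sub, map_add, heR]
  simp only [sub_smul, add_smul, one_smul, smul_add, smul_sub, hq]
  abel

/-- An element fixed by a subgroup of index two gives a fixed one. -/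
theorem exists_fixed_descent {H : Subgroup G} (hH : H = ⊤ ∨ H.index = 2) {R' : A}
    (h : ∀ σ ∈ H, act σ R' = R') :
    ∃ t : G, ∀ σ, act σ (R' + act t R') = R' + act t R' := by
  rcases hH with rfl | hH
  · exact ⟨1, fun σ => by rw [map_add, ← act_mul, h σ trivial, h _ trivial, h 1 trivial]⟩
  obtain ⟨t, ht⟩ := SetLike.exists_not_mem_of_ne_top H (fun e => by simp [e] at hH) rfl
  have hmem : ∀ σ, (t⁻¹ * σ ∈ H ∧ σ ∉ H) ∨ σ ∈ H := fun σ => by
    by_cases hσ : σ ∈ H
    · exact Or.inr hσ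
    · refine Or.inl ⟨?_, hσ⟩
      rw [Subgroup.mul_mem_iff_of_index_two hH]
      exact iff_of_false (fun hh => ht (by simpa using hh)) hσ
  refine ⟨t, fun σ => ?_⟩
  rcases hmem σ with ⟨h1, h2⟩ | h1
  · have e1 : act σ R' = act t R' := by
      conv_lhs => rw [show σ = t * (t⁻¹ * σ) by rw [mul_inv_cancel_left]]
      rw [act_mul, h _ h1]
    have e2 : act (σ * t) R' = R' :=
      h _ ((Subgroup.mul_mem_iff_of_index_two hH).mpr (iff_of_false h2 ht))
    rw [map_add, ← act_mul, e1, e2, add_comm]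
  · have h2 : t⁻¹ * (σ * t) ∈ H := by
      rw [Subgroup.mul_mem_iff_of_index_two hH, Subgroup.mul_mem_iff_of_index_two hH]
      simp [h1, ht]
    rw [map_add, h σ h1, ← act_mul, show σ * t = t * (t⁻¹ * (σ * t)) by rw [mul_inv_cancel_left],
      act_mul, h _ h2]

end

section

variable {B : Type*} [AddCommGroup B]

/-- In a relation `a • Y = b • X` with the order of `Y` dividing that of `X` a prime power dividing
`a` and the order of `X` divides `b`. -/
theorem dvd_of_orders [Finite B] {X Y : B} {a b : ℤ} (e : a • Y = b • X)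
    (hXY : addOrderOf Y ∣ addOrderOf X) {m : ℕ} (hm : m ∣ addOrderOf X) (ha : (m : ℤ) ∣ a) :
    (m : ℤ) ∣ b := by
  obtain ⟨c, hc⟩ := hm
  obtain ⟨a', rfl⟩ := ha
  have hpos : 0 < addOrderOf X := (isOfFinAddOrder_of_finite X).addOrderOf_pos
  have hY : ((c : ℤ) * ((m : ℤ) * a')) • Y = 0 := by
    rw [← addOrderOf_dvd_iff_zsmul_eq_zero, ← mul_assoc, ← Nat.cast_mul, mul_comm c m, ← hc]
    exact (Int.natCast_dvd_natCast.mpr hXY).mul_right _
  rw [mul_zsmul, e, ← mul_zsmul, ← addOrderOf_dvd_iff_zsmul_eq_zero, hc, Nat.cast_mul,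
    mul_comm (m : ℤ)] at hY
  refine (mul_dvd_mul_iff_left ?_).mp hY
  exact_mod_cast (fun h0 => by rw [h0, mul_zero] at hc; omega : ¬ c = 0)

end

variable {W : WeierstrassCurve ℤ} [(ratCurve W).IsElliptic] {p : ℕ} [hp : Fact p.Prime]

/-- **Unbounded translations**: given `τ` as above, for large `N` some element of Galois fixes
`E[pᴺ]` and moves `p ^ k` times a `pᴺ`-th part of `P`. -/
theorem exists_unbounded_translation {H : Subgroup GQ} (hH : H = ⊤ ∨ H.index = 2)
    {a q : ℤ} (hn : q + 1 - a ≠ 0)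
    (hτ : ∀ N : ℕ, ∃ τ : GQ,
      (∀ σ ∈ H, ∀ y : ((ratCurve W).toAffine⁄Qb).Point, p ^ N • y = 0 → σ • τ • y = τ • σ • y) ∧
      ∀ y : ((ratCurve W).toAffine⁄Qb).Point, p ^ N • y = 0 → τ • τ • y - a • τ • y + q • y = 0)
    {P : (ratCurve W).toAffine.Point} (hP : ¬ IsOfFinAddOrder P) (k : ℕ) :
    ∃ N : ℕ, ∃ σ : GQ, (∀ T, fibHom W (p ^ N) 0 σ T = T) ∧
      ∃ Q : Fib W (p ^ N) P, p ^ k • (fibHom W (p ^ N) P σ Q).1 ≠ p ^ k • Q.1 := by
  haveI := FA.MordellWeil.mordell (ratCurve W)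
  set c : ℤ := 2 * (q + 1 - a) * (p ^ k : ℕ) with hc
  have hc0 : c ≠ 0 := mul_ne_zero (mul_ne_zero two_ne_zero hn)
    (Int.natCast_ne_zero.mpr (pow_ne_zero _ hp.out.ne_zero))
  obtain ⟨M, hM⟩ := FA.Bashmakov.exists_bound_not_mul (P := c • P) fun hfin => hP (by
    obtain ⟨m, hm, hm0⟩ := isOfFinAddOrder_iff_zsmul_eq_zero.mp hfin
    rw [isOfFinAddOrder_iff_zsmul_eq_zero]
    exact ⟨m * c, mul_ne_zero hm hc0, by rw [mul_zsmul]; exact hm0⟩)
  obtain ⟨N, hN⟩ := pow_unbounded_of_one_lt M hp.out.one_lt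
  refine ⟨N, by_contra fun hall => ?_⟩
  push Not at hall
  set act := FA.Bashmakov.pointAct (ratCurve W)
  obtain ⟨Q, hQ⟩ := exists_div W (pow_ne_zero N hp.out.ne_zero) (up W P)
  set R := p ^ k • Q with hR
  have hMR : p ^ N • R = ((p ^ k : ℕ) : ℤ) • up W P := by
    rw [hR, smul_comm, hQ, natCast_zsmul]
  have hfix : ∀ σ, act σ (up W P) = up W P := fun σ => smul_up W σ P
  obtain ⟨τ, hcomm, hquad⟩ := hτ N
  obtain ⟨R', hR', hMR'⟩ := exists_fixed_multiple act (M := p ^ N) (R := R)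
    (fun σ => by rw [hMR, map_zsmul, hfix])
    (fun g hg => by
      have h := hall g (fun T => Subtype.ext (hg T.1 (T.2.trans (map_zero (up W))))) ⟨Q, hQ⟩
      show act g (p ^ k • Q) = p ^ k • Q
      rw [map_nsmul]
      exact h)
    (H := H) (τ := τ) hcomm hquad
  obtain ⟨t, ht⟩ := exists_fixed_descent act hH hR'
  obtain ⟨R₀, hR₀⟩ := FA.Thirteen.exists_rat_point (E := ratCurve W) (R' + act t R') ht
  refine hM (p ^ N) hN R₀ (mapHom_injective (algebraMap ℚ Qb) rfl ?_)
  show up W (p ^ N • R₀) = up W (c • P)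
  have hup : up W R₀ = R' + act t R' := by
    refine Eq.trans ?_ hR₀
    cases R₀ <;> rfl
  refine (map_nsmul (up W) _ R₀).trans ((congrArg (p ^ N • ·) hup).trans
    (Eq.trans ?_ (map_zsmul (up W) c P).symm))
  rw [nsmul_add, ← map_nsmul, hMR', hMR, map_zsmul, map_zsmul, hfix, hc]
  module

/-- **The orders modulo infinitely many primes**, given one element of Galois. -/
theorem infinite_pow_succ_dvd_addOrderOf {x y : ℚ} (h : (ratCurve W).toAffine.Nonsingular x y)
    {N k : ℕ} (hσ : ∃ σ : GQ, (∀ T, fibHom W (p ^ N) 0 σ T = T) ∧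
      ∃ Q : Fib W (p ^ N) (.some x y h),
        p ^ k • (fibHom W (p ^ N) _ σ Q).1 ≠ p ^ k • Q.1) :
    {q : ℕ | q.Prime ∧ ∃ _ : Fact q.Prime,
      ∃ k' : (W.map (Int.castRingHom (ZMod q))).toAffine.Nonsingular (x : ZMod q) y,
        p ^ (k + 1) ∣
          addOrderOf (Affine.Point.some (x : ZMod q) (y : ZMod q) k')}.Infinite := by
  have hpN : p ^ N ≠ 0 := pow_ne_zero _ hp.out.ne_zero
  have := finite_fib W hpN 0
  have := finite_fib W hpN (.some x y h)
  set f := (fibHom W (p ^ N) 0).prod (fibHom W (p ^ N) (.some x y h)) with hf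
  let _ : Fintype f.range := Fintype.ofFinite _
  set π := f.rangeRestrict with hπdef
  let X : Set f.range := {g | (∀ T, g.1.1 T = T) ∧ ∃ Q, p ^ k • (g.1.2 Q).1 ≠ p ^ k • Q.1}
  have hX : ∀ g ∈ X, ∀ z, z * g * z⁻¹ ∈ X := by
    rintro g ⟨hT, Q, hQ⟩ ⟨_, τ, rfl⟩
    set fi := fibHom W (p ^ N) (.some x y h)
    refine ⟨fun T => ?_, fi τ Q, fun e => hQ ?_⟩
    · show fibHom W (p ^ N) 0 τ (g.1.1 ((fibHom W (p ^ N) 0 τ).symm T)) = T
      rw [hT, Equiv.apply_symm_apply]
    · replace e : p ^ k • (fi τ (g.1.2 ((fi τ).symm (fi τ Q)))).1 = p ^ k • (fi τ Q).1 := e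
      rw [Equiv.symm_apply_apply] at e
      replace e : p ^ k • (τ • (g.1.2 Q).1) = p ^ k • (τ • Q.1) := e
      rwa [← smul_nat, ← smul_nat, smul_left_cancel_iff] at e
  have hker : IsOpen (π.ker : Set GQ) := by
    rw [hπdef, MonoidHom.ker_rangeRestrict, hf, MonoidHom.ker_prod, Subgroup.coe_inf]
    exact (isOpen_ker_fibHom W hpN _).inter (isOpen_ker_fibHom W hpN _)
  have hd := FA.Chebotarev.hasDirichletDensity_frobSet π (MonoidHom.rangeRestrict_surjective _)
    hker hX
  have hpos : (Nat.card X : ℝ) / Fintype.card f.range ≠ 0 := by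
    obtain ⟨σ, hσ₁, hσ₂⟩ := hσ
    have : Nonempty X := ⟨⟨π σ, hσ₁, hσ₂⟩⟩
    exact div_ne_zero (Nat.cast_ne_zero.mpr Nat.card_pos.ne')
      (Nat.cast_ne_zero.mpr Fintype.card_ne_zero)
  set D : ℕ := W.Δ.natAbs * p * x.den * y.den with hD
  have hD0 : D ≠ 0 := by
    have hΔ : W.Δ.natAbs ≠ 0 := fun e => (ratCurve W).isUnit_Δ.ne_zero (by
      simp [ratCurve, Int.natAbs_eq_zero.mp e])
    simp [hD, hΔ, hp.out.ne_zero]
  have hT : (FA.Chebotarev.frobSet π X \ {v | Ideal.absNorm v.asIdeal ∣ D}).HasDirichletDensity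
      ((Nat.card X : ℝ) / Fintype.card f.range) :=
    FA.TraceDist.hasDirichletDensity_congr hd (finite_absNorm_dvd hD0)
      fun v hv => ⟨fun h => ⟨h, hv⟩, fun h => h.1⟩
  have hinf := FA.Chebotarev.infinite_of_hasDirichletDensity hT hpos
  have hIm : ((fun v : HeightOneSpectrum (𝓞 ℚ) => Ideal.absNorm v.asIdeal) ''
      (FA.Chebotarev.frobSet π X \ {v | Ideal.absNorm v.asIdeal ∣ D})).Infinite := fun hfin => by
    have hI := Set.Finite.biUnion hfin fun q _ => Ideal.finite_setOfPred_absNorm_eq (S := 𝓞 ℚ) q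
    exact hinf ((hI.preimage (f := fun v : HeightOneSpectrum (𝓞 ℚ) => v.asIdeal)
      fun a _ b _ e => HeightOneSpectrum.ext e).subset fun v hv =>
        Set.mem_biUnion (Set.mem_image_of_mem _ hv) rfl)
  refine hIm.mono ?_
  rintro _ ⟨v, ⟨hfr, hv⟩, rfl⟩
  have hq := FA.Chebotarev.absNorm_prime v
  haveI := Fact.mk hq
  set q := Ideal.absNorm v.asIdeal
  have hnd : ∀ {m : ℕ}, m ∣ D → ¬ q ∣ m := fun hm e => hv (e.trans hm)
  have hgood : W.IsGoodPrimeFor q := fun e =>
    hnd (((dvd_mul_right _ p).mul_right x.den).mul_right y.den) (Int.natCast_dvd.mp e)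
  have hqp : q ≠ p := fun e =>
    hnd (((dvd_mul_left p _).mul_right x.den).mul_right y.den) (e ▸ dvd_rfl)
  haveI := reductionMod_isElliptic W hgood
  obtain ⟨A, hA⟩ := FA.Deform.exists_liesOverPrime hq
  obtain ⟨σ, hσ'⟩ := FA.Deform.exists_isFrobeniusAt hq hA
  haveI : CharP (Res A) q := residueField_charP A hq hA
  haveI := redCurve_isElliptic (intCoeff_ratCurve W A) (valuation_Δ_ratCurve W hq hA hgood)
  obtain ⟨htor, Q, hQ⟩ := hfr A hA σ hσ'
  obtain ⟨k', hPq⟩ := redHom_up W hA hgood h (hnd ((dvd_mul_left x.den _).mul_right y.den))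
    (hnd (dvd_mul_left y.den _))
  refine ⟨hq, inferInstance, k', by_contra fun hnot => hQ ?_⟩
  obtain ⟨R, hR⟩ := exists_nsmul_eq_of_not_dvd (n := N) hp.out hnot
  obtain ⟨Y, hY, hσY, -⟩ := exists_fixed_lift (n := N) hp.out hgood hqp hA hσ'
    (Z := p ^ k • up W (.some x y h)) (by rw [smul_nat, smul_up]) (R := R)
    (by rw [hR, map_nsmul, map_nsmul, hPq])
  have hD' : p ^ N • (Y - p ^ k • Q.1) = 0 := by rw [nsmul_sub, hY, smul_comm, Q.2, sub_self]
  have hfixD : σ • (Y - p ^ k • Q.1) = Y - p ^ k • Q.1 :=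
    congrArg Subtype.val (htor ⟨Y - p ^ k • Q.1, hD'.trans (map_zero (up W)).symm⟩)
  rw [FA.Local.gal_smul_sub (ratCurve W) σ, hσY, sub_right_inj, smul_nat] at hfixD
  exact hfixD

end FA.OrderDensity

end
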